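import Mathlib
import Fermat.Prelude.Def_ModularCurve_PeriodHomPair

set_option autoImplicit false

open UpperHalfPlane CongruenceSubgroup Filter Topology ModularGroup
open scoped MatrixGroups

namespace Fermat.Agent.S21

/-- A matrix of `SL(2,ℤ)` with trace `±2` is conjugate in `SL(2,ℤ)` to an upper triangular
matrix. -/
theorem exists_conj_lower_left_eq_zero (γ : SL(2, ℤ))
    (hγ : (γ : Matrix (Fin 2) (Fin 2) ℤ).trace ^ 2 = 4) :
    ∃ δ : SL(2, ℤ), (δ⁻¹ * γ * δ) 1 0 = 0 := by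
  have hdet : γ 0 0 * γ 1 1 - γ 0 1 * γ 1 0 = 1 := by
    have := γ.det_coe
    rwa [Matrix.det_fin_two] at this
  rw [Matrix.trace_fin_two] at hγ
  -- `ε = ±1` with `a + d = 2 ε`
  obtain ⟨ε, hε, htr⟩ : ∃ ε : ℤ, ε ^ 2 = 1 ∧ γ 0 0 + γ 1 1 = 2 * ε := by
    have h : (γ 0 0 + γ 1 1 - 2) * (γ 0 0 + γ 1 1 + 2) = 0 := by linear_combination hγ
    rcases mul_eq_zero.mp h with h | h
    · exact ⟨1, by norm_num, by linarith⟩
    · exact ⟨-1, by norm_num, by linarith⟩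
  by_cases hc : γ 1 0 = 0
  · exact ⟨1, by simpa using hc⟩
  -- primitive vector in the kernel of `γ - ε`
  obtain ⟨x, y, hxy, g, hx, hy⟩ : ∃ x y : ℤ, IsCoprime x y ∧ ∃ g : ℤ,
      ε - γ 1 1 = g * x ∧ γ 1 0 = g * y := by
    obtain ⟨g, x, y, -, hco, hx, hy⟩ := Int.exists_gcd_one'
      (Int.gcd_pos_of_ne_zero_right (ε - γ 1 1) hc)
    exact ⟨x, y, Int.isCoprime_iff_gcd_eq_one.mpr hco, g, by rw [hx]; ring, by rw [hy]; ring⟩
  have hg : g ≠ 0 := by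
    rintro rfl
    exact hc (by simpa using hy)
  obtain ⟨δ, hδ0, hδ1⟩ := hxy.exists_SL2_col 0
  refine ⟨δ, ?_⟩
  have hinv : (δ⁻¹ : SL(2, ℤ)) 1 0 = -δ 1 0 ∧ (δ⁻¹ : SL(2, ℤ)) 1 1 = δ 0 0 := by
    rw [Matrix.SpecialLinearGroup.SL2_inv_expl]
    simp
  have key : (δ⁻¹ * γ * δ) 1 0 =
      -y * (γ 0 0 * x + γ 0 1 * y) + x * (γ 1 0 * x + γ 1 1 * y) := by
    simp only [Matrix.SpecialLinearGroup.coe_mul, Matrix.mul_apply, Fin.sum_univ_two, hinv.1,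
      hinv.2, hδ0, hδ1]
    ring
  rw [key]
  -- multiply by `g ^ 2`
  have h2 : g ^ 2 * (-y * (γ 0 0 * x + γ 0 1 * y) + x * (γ 1 0 * x + γ 1 1 * y)) = 0 := by
    have e1 : g * x = ε - γ 1 1 := hx.symm
    have e2 : g * y = γ 1 0 := hy.symm
    have : g ^ 2 * (-y * (γ 0 0 * x + γ 0 1 * y) + x * (γ 1 0 * x + γ 1 1 * y)) =
        -(g * y) * (γ 0 0 * (g * x) + γ 0 1 * (g * y)) +
          (g * x) * (γ 1 0 * (g * x) + γ 1 1 * (g * y)) := by ring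
    rw [this, e1, e2]
    have ha : γ 0 0 = 2 * ε - γ 1 1 := by linarith
    rw [ha] at hdet ⊢
    linear_combination (γ 1 0) * hdet - (γ 1 0) * hε
  exact (mul_eq_zero.mp h2).resolve_left (pow_ne_zero 2 hg)

theorem tendsto_T_zpow_smul_atImInfty (n : ℤ) :
    Tendsto (fun w : ℍ => (T ^ n • w : ℍ)) atImInfty atImInfty := by
  rw [atImInfty, tendsto_comap_iff]
  have : (im ∘ fun w : ℍ => (T ^ n • w : ℍ)) = im := by
    funext w
    exact im_T_zpow_smul w n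
  rw [this]
  exact tendsto_comap

theorem period_eq_zero_of_trace_sq {N : ℕ} [NeZero N] {f : CuspForm (Gamma0 N) 2} {F : ℍ → ℂ}
    (hF : ModularCurve.HasEquivariantPrimitive N f F) (γ : Gamma0 N)
    (hγ : ((γ : SL(2, ℤ)) : Matrix (Fin 2) (Fin 2) ℤ).trace ^ 2 = 4) :
    F ((γ : SL(2, ℤ)) • UpperHalfPlane.I) - F UpperHalfPlane.I = 0 := by
  obtain ⟨-, -, hequiv, hlim⟩ := hF
  obtain ⟨c, hc⟩ := hequiv γ
  rw [hc]
  obtain ⟨δ, hδ⟩ := exists_conj_lower_left_eq_zero (γ : SL(2, ℤ)) hγ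
  obtain ⟨n, hn⟩ := exists_eq_T_zpow_of_c_eq_zero hδ
  obtain ⟨L, hL⟩ := hlim δ
  -- `F (δ • T^n • w) - F (δ • w) = c`
  have h1 : ∀ w : ℍ, F (δ • (T ^ n • w)) - F (δ • w) = c := by
    intro w
    rw [← hn w, ← hc (δ • w)]
    congr 2
    simp only [← mul_smul]
    congr 1
    group
  have h2 : Tendsto (fun w : ℍ => F (δ • (T ^ n • w)) - F (δ • w)) atImInfty (𝓝 (L - L)) :=
    (hL.comp (tendsto_T_zpow_smul_atImInfty n)).sub hL
  have h3 : Tendsto (fun _ : ℍ => c) atImInfty (𝓝 (L - L)) := by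
    simpa only [h1] using h2
  have := tendsto_nhds_unique h3 tendsto_const_nhds
  simpa using this.symm

end Fermat.Agent.S21
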