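import Mathlib
import Fermat.Prelude.Def_ModularCurve_PeriodHomPair
import Fermat.Agent.S21.Parabolic

/-!
# S21, final assembly (task J5)

`assemble` reduces the frozen statement S21 to four inputs:
* `hlin`  : `ExistsPeriodMapLinear N`                        (J1)
* `hpar`  : every `periodMap N f` is a parabolic hom          (J1 + J3)
* `hinj`  : `periodHomPair N` is injective                    (J2)
* `hfin`, `hdim` : `parabolicHoms` is finite dimensional of dimension at most
  `2 * finrank (CuspForm (Gamma0 N) 2)`                       (J4 + S20 core)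
-/

set_option autoImplicit false

open CongruenceSubgroup ModularCurve ModularCurve.Period

namespace Fermat.Agent.S21

theorem range_periodHomPair_le (N : ℕ)
    (hlin : ExistsPeriodMapLinear N)
    (hpar : ∀ f : CuspForm (Gamma0 N) 2, periodMap N f ∈ parabolicHoms ℂ (Gamma0 N) ℂ) :
    LinearMap.range (periodHomPair N) ≤ parabolicHoms ℂ (Gamma0 N) ℂ := by
  obtain ⟨pml, hpml, hdef⟩ := periodHomPair_def N hlin
  rintro _ ⟨⟨f, g⟩, rfl⟩
  rw [hdef]
  simp only [LinearMap.coprod_apply, LinearMap.comp_apply, LinearMap.add_apply,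
    LinearMap.sub_apply, LinearMap.id_apply, hpml]
  exact Submodule.add_mem _
    (Submodule.add_mem _ (hpar f) (charInvolution_mem_parabolicHoms N ℂ ℂ (hpar f)))
    (Submodule.sub_mem _ (hpar g) (charInvolution_mem_parabolicHoms N ℂ ℂ (hpar g)))

theorem assemble (N : ℕ)
    (hlin : ExistsPeriodMapLinear N)
    (hpar : ∀ f : CuspForm (Gamma0 N) 2, periodMap N f ∈ parabolicHoms ℂ (Gamma0 N) ℂ)
    (hinj : Function.Injective (periodHomPair N))
    (hfin : Module.Finite ℂ (parabolicHoms ℂ (Gamma0 N) ℂ))
    (hdim : Module.finrank ℂ (parabolicHoms ℂ (Gamma0 N) ℂ)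
      ≤ 2 * Module.finrank ℂ (CuspForm (Gamma0 N) 2)) :
    Function.Injective (periodHomPair N)
      ∧ LinearMap.range (periodHomPair N) = parabolicHoms ℂ (Gamma0 N) ℂ := by
  refine ⟨hinj, ?_⟩
  have hle := range_periodHomPair_le N hlin hpar
  -- the source is finite dimensional, because it embeds in `parabolicHoms`
  have hfinR : Module.Finite ℂ (LinearMap.range (periodHomPair N)) :=
    Submodule.finiteDimensional_of_le hle
  have e : (CuspForm (Gamma0 N) 2 × CuspForm (Gamma0 N) 2) ≃ₗ[ℂ]
      LinearMap.range (periodHomPair N) := LinearEquiv.ofInjective _ hinj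
  have hfinP : Module.Finite ℂ (CuspForm (Gamma0 N) 2 × CuspForm (Gamma0 N) 2) :=
    Module.Finite.equiv e.symm
  have hfinC : Module.Finite ℂ (CuspForm (Gamma0 N) 2) :=
    Module.Finite.of_surjective
      (LinearMap.fst ℂ (CuspForm (Gamma0 N) 2) (CuspForm (Gamma0 N) 2)) LinearMap.fst_surjective
  refine Submodule.eq_of_le_of_finrank_le hle ?_
  rw [← e.finrank_eq, Module.finrank_prod]
  omega

/-- `periodMap N f` is parabolic as soon as `f` has an equivariant primitive (J1(a) + J3). -/
theorem periodMap_mem_parabolicHoms {N : ℕ} [NeZero N] (f : CuspForm (Gamma0 N) 2)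
    (hex : ∃ F : UpperHalfPlane → ℂ, HasEquivariantPrimitive N f F) :
    periodMap N f ∈ parabolicHoms ℂ (Gamma0 N) ℂ := by
  obtain ⟨F, hF⟩ := hex
  obtain ⟨F₀, h₀, hdef⟩ := periodMap_def N f hF
  rw [mem_parabolicHoms_iff]
  intro γ hγ
  rw [hdef, IsEquivariantPrimitive.periodHom_apply]
  exact period_eq_zero_of_trace_sq h₀ γ hγ

/-- Version of `assemble` with the inputs in the shape produced by the tasks J1-J4. -/
theorem assemble' (N : ℕ) [NeZero N]
    (hex : ∀ f : CuspForm (Gamma0 N) 2,
      ∃ F : UpperHalfPlane → ℂ, HasEquivariantPrimitive N f F)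
    (hlin : ExistsPeriodMapLinear N)
    (hinj : Function.Injective (periodHomPair N))
    (hfin : Module.Finite ℂ (parabolicHoms ℂ (Gamma0 N) ℂ))
    (hdim : Module.finrank ℂ (parabolicHoms ℂ (Gamma0 N) ℂ)
      ≤ 2 * Module.finrank ℂ (CuspForm (Gamma0 N) 2)) :
    Function.Injective (periodHomPair N)
      ∧ LinearMap.range (periodHomPair N) = parabolicHoms ℂ (Gamma0 N) ℂ :=
  assemble N hlin (fun f => periodMap_mem_parabolicHoms f (hex f)) hinj hfin hdim

end Fermat.Agent.S21
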