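import Mathlib
import Fermat.Prelude.Def_ModularCurve_PeriodHomPair

set_option autoImplicit false

open UpperHalfPlane CongruenceSubgroup Filter Topology Function Complex ModularGroup
open scoped MatrixGroups Real Manifold

namespace Fermat.Agent.S21

/-- A function on `ℍ` invariant under a real translation gives a periodic function on `ℂ`. -/
lemma periodic_comp_ofComplex_of_vadd {G : ℍ → ℂ} {h : ℝ} (hG : ∀ w : ℍ, G (h +ᵥ w) = G w) :
    Function.Periodic (G ∘ ofComplex) (h : ℂ) := by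
  intro w
  by_cases hw : 0 < im w
  · have hw' : 0 < im (w + h) := by simp [hw]
    simp only [comp_apply, ofComplex_apply_of_im_pos hw', ofComplex_apply_of_im_pos hw]
    rw [← hG ⟨w, hw⟩]
    congr 1
    ext
    simp [add_comm]
  · have hw0 : im w ≤ 0 := not_lt.mp hw
    have hw' : im (w + h) ≤ 0 := by simpa using hw0
    simp [ofComplex_apply_of_im_nonpos hw', ofComplex_apply_of_im_nonpos hw0]

lemma tendsto_vadd_atImInfty (h : ℝ) :
    Tendsto (fun w : ℍ => h +ᵥ w) atImInfty atImInfty := by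
  rw [atImInfty, tendsto_comap_iff]
  have : (UpperHalfPlane.im ∘ fun w : ℍ => h +ᵥ w) = UpperHalfPlane.im := by
    funext w; simp
  rw [this]
  exact tendsto_comap

lemma T_pow_smul_eq_vadd (h : ℕ) (w : ℍ) : (T ^ h : SL(2, ℤ)) • w = ((h : ℝ) +ᵥ w) := by
  ext
  have := ModularGroup.coe_T_zpow_smul_eq w (n := (h : ℤ))
  rw [zpow_natCast] at this
  rw [this]
  simp [add_comm]

/-- A finite index subgroup contains all conjugates of a power of `T`. -/
lemma exists_period (Γ : Subgroup SL(2, ℤ)) [Γ.FiniteIndex] :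
    ∃ h : ℕ, 0 < h ∧ ∀ δ : SL(2, ℤ), δ * T ^ h * δ⁻¹ ∈ Γ := by
  have hfi : Γ.normalCore.FiniteIndex := inferInstance
  obtain ⟨n, hn, -, hT⟩ := Subgroup.exists_pow_mem_of_index_ne_zero hfi.index_ne_zero T
  refine ⟨n, hn, fun δ => Γ.normalCore_le ?_⟩
  exact (Subgroup.normalCore_normal Γ).conj_mem _ hT δ

lemma mdiff_comp_smul {H : ℍ → ℂ} (hol : MDiff H) (δ : SL(2, ℤ)) :
    MDiff (fun w : ℍ => H (δ • w)) := by
  have h1 : MDiff (fun τ : ℍ => (δ : GL (Fin 2) ℝ) • τ) :=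
    mdifferentiable_smul (by simp)
  exact hol.comp h1


section Main

variable {Γ : Subgroup SL(2, ℤ)} {H : ℍ → ℂ}

/-- translation invariance of `H ∘ δ` -/
lemma comp_smul_vadd_eq
    (hper : ∀ γ ∈ Γ, ∃ c : ℂ, ∀ z : ℍ, H (γ • z) - H z = c)
    (hlim : ∀ δ : SL(2, ℤ), ∃ L : ℂ, Tendsto (fun w : ℍ => H (δ • w)) atImInfty (𝓝 L))
    {h : ℕ} (hh : ∀ δ : SL(2, ℤ), δ * T ^ h * δ⁻¹ ∈ Γ) (δ : SL(2, ℤ)) (w : ℍ) :
    H (δ • ((h : ℝ) +ᵥ w)) = H (δ • w) := by
  obtain ⟨c, hc⟩ := hper _ (hh δ)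
  obtain ⟨L, hL⟩ := hlim δ
  have key : ∀ w : ℍ, H (δ • ((h : ℝ) +ᵥ w)) - H (δ • w) = c := by
    intro w
    rw [← hc (δ • w), ← T_pow_smul_eq_vadd, ← mul_smul, ← mul_smul]
    congr 3
    group
  have h1 : Tendsto (fun w : ℍ => H (δ • ((h : ℝ) +ᵥ w)) - H (δ • w)) atImInfty (𝓝 (L - L)) :=
    (hL.comp (tendsto_vadd_atImInfty h)).sub hL
  have h2 : Tendsto (fun w : ℍ => H (δ • ((h : ℝ) +ᵥ w)) - H (δ • w)) atImInfty (𝓝 c) := by
    simp only [key]
    exact tendsto_const_nhds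
  have hc0 : c = 0 := by
    have := tendsto_nhds_unique h2 h1
    simpa using this
  have := key w
  rw [hc0, sub_eq_zero] at this
  exact this

theorem const_of_re_period_zero [Γ.FiniteIndex] (hol : MDiff H)
    (hper : ∀ γ ∈ Γ, ∃ c : ℂ, c.re = 0 ∧ ∀ z : ℍ, H (γ • z) - H z = c)
    (hlim : ∀ δ : SL(2, ℤ), ∃ L : ℂ, Tendsto (fun w : ℍ => H (δ • w)) atImInfty (𝓝 L)) :
    ∃ c : ℂ, ∀ z : ℍ, H z = c := by
  classical
  obtain ⟨h, hpos, hh⟩ := exists_period Γ
  have hpos' : (0 : ℝ) < (h : ℝ) := by exact_mod_cast hpos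
  have hper' : ∀ γ ∈ Γ, ∃ c : ℂ, ∀ z : ℍ, H (γ • z) - H z = c := fun γ hγ => by
    obtain ⟨c, -, hc⟩ := hper γ hγ
    exact ⟨c, hc⟩
  -- the functions `H ∘ δ`
  set Hd : SL(2, ℤ) → ℍ → ℂ := fun δ w => H (δ • w) with hHd
  have hperiodic : ∀ δ, Function.Periodic (Hd δ ∘ ofComplex) ((h : ℝ) : ℂ) := fun δ =>
    periodic_comp_ofComplex_of_vadd (comp_smul_vadd_eq hper' hlim hh δ)
  have hmd : ∀ δ, MDiff (Hd δ) := fun δ => mdiff_comp_smul hol δ
  have hbd : ∀ δ, IsBoundedAtImInfty (Hd δ) := fun δ => by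
    obtain ⟨L, hL⟩ := hlim δ
    exact hL.isBigO_one ℝ
  set K : SL(2, ℤ) → ℂ → ℂ := fun δ => cuspFunction (h : ℝ) (Hd δ) with hK
  have hKd : ∀ δ, DifferentiableOn ℂ (K δ) (Metric.ball 0 1) := fun δ =>
    differentiableOn_cuspFunction_ball hpos' (hperiodic δ) (hmd δ) (hbd δ)
  have hKeq : ∀ δ (w : ℍ), K δ (Periodic.qParam (h : ℝ) w) = H (δ • w) := fun δ w =>
    eq_cuspFunction w hpos'.ne' (hperiodic δ)
  -- radius
  set r : ℝ := Real.exp (-π / h) with hr
  have hr0 : 0 ≤ r := (Real.exp_pos _).le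
  have hr1 : r < 1 := by
    rw [hr, Real.exp_lt_one_iff]
    exact div_neg_of_neg_of_pos (by simpa using Real.pi_pos) hpos'
  -- maxima on the closed ball
  have hmax : ∀ δ, ∃ q ∈ Metric.closedBall (0 : ℂ) r,
      IsMaxOn (fun q => (K δ q).re) (Metric.closedBall (0 : ℂ) r) q := fun δ =>
    (isCompact_closedBall (0 : ℂ) r).exists_isMaxOn (Metric.nonempty_closedBall.mpr hr0)
      (Complex.continuous_re.comp_continuousOn
        ((hKd δ).continuousOn.mono (Metric.closedBall_subset_ball hr1)))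
  choose qm hqm_mem hqm_max using hmax
  -- coset representatives
  let Q := SL(2, ℤ) ⧸ Γ
  have : Finite Q := Subgroup.finite_quotient_of_finiteIndex
  let d : Q → SL(2, ℤ) := fun x => (x.out)⁻¹
  obtain ⟨x₀, hx₀⟩ := Finite.exists_max (fun x : Q => (K (d x) (qm (d x))).re)
  set s : ℝ := (K (d x₀) (qm (d x₀))).re with hs
  -- global bound
  have hbound : ∀ z : ℍ, (H z).re ≤ s := by
    intro z
    obtain ⟨g, hg⟩ := ModularGroup.exists_one_half_le_im_smul z
    obtain ⟨γ, hγ⟩ := QuotientGroup.mk_out_eq_mul Γ g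
    set x : Q := (g : Q) with hx
    have hdx : d x = (γ : SL(2, ℤ))⁻¹ * g⁻¹ := by
      show (Quotient.out x)⁻¹ = _
      rw [hγ, mul_inv_rev]
    have h1 : H (d x • (g • z)) = H ((γ : SL(2, ℤ))⁻¹ • z) := by
      rw [hdx, ← mul_smul]
      congr 1
      rw [mul_assoc, inv_mul_cancel, mul_one]
    obtain ⟨c, hc0, hc⟩ := hper _ (Γ.inv_mem γ.2)
    have h2 : (H ((γ : SL(2, ℤ))⁻¹ • z)).re = (H z).re := by
      have := congrArg Complex.re (hc z)
      rw [Complex.sub_re, hc0] at this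
      linarith
    have h3 : Periodic.qParam (h : ℝ) (g • z : ℍ) ∈ Metric.closedBall (0 : ℂ) r := by
      rw [mem_closedBall_zero_iff, Periodic.norm_qParam, hr]
      apply Real.exp_le_exp.mpr
      rw [div_le_div_iff_of_pos_right hpos']
      have : (1 : ℝ) / 2 ≤ ((g • z : ℍ) : ℂ).im := hg
      nlinarith [Real.pi_pos]
    calc (H z).re = (K (d x) (Periodic.qParam (h : ℝ) (g • z : ℍ))).re := by
          rw [hKeq, h1, h2]
      _ ≤ (K (d x) (qm (d x))).re := hqm_max (d x) h3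
      _ ≤ s := hx₀ x
  -- the maximum is attained in the open ball
  have hball : ∀ q ∈ Metric.ball (0 : ℂ) 1, (K (d x₀) q).re ≤ s := by
    intro q hq
    rcases eq_or_ne q 0 with rfl | hq0
    · exact hqm_max (d x₀) (Metric.mem_closedBall_self hr0)
    · have him := Periodic.im_invQParam_pos_of_norm_lt_one hpos' (mem_ball_zero_iff.mp hq) hq0
      have := hKeq (d x₀) ⟨_, him⟩
      rw [UpperHalfPlane.coe_mk, Periodic.qParam_right_inv hpos'.ne' hq0] at this
      rw [this]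
      exact hbound _
  have hq₀ : qm (d x₀) ∈ Metric.ball (0 : ℂ) 1 := Metric.closedBall_subset_ball hr1 (hqm_mem _)
  have hexp : Set.EqOn (fun q => Complex.exp (K (d x₀) q))
      (Function.const ℂ (Complex.exp (K (d x₀) (qm (d x₀))))) (Metric.ball 0 1) := by
    apply Complex.eq_const_of_exists_max (f := fun q => Complex.exp (K (d x₀) q))
      (hKd (d x₀)).cexp hq₀
    intro q hq
    simp only [Function.comp_apply, Complex.norm_exp, Set.mem_ofPred_eq]
    exact Real.exp_le_exp.mpr (hball q hq)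
  -- hence `K` has zero derivative
  have hderiv : Set.EqOn (deriv (K (d x₀))) 0 (Metric.ball 0 1) := by
    intro q hq
    have hKq : DifferentiableAt ℂ (K (d x₀)) q :=
      (hKd (d x₀)).differentiableAt (Metric.isOpen_ball.mem_nhds hq)
    have h1 : HasDerivAt (fun q => Complex.exp (K (d x₀) q))
        (Complex.exp (K (d x₀) q) * deriv (K (d x₀)) q) q := hKq.hasDerivAt.cexp
    have h2 : HasDerivAt (fun q => Complex.exp (K (d x₀) q)) 0 q := by
      have : (fun q => Complex.exp (K (d x₀) q)) =ᶠ[𝓝 q]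
          (Function.const ℂ (Complex.exp (K (d x₀) (qm (d x₀))))) :=
        hexp.eventuallyEq_of_mem (Metric.isOpen_ball.mem_nhds hq)
      exact (hasDerivAt_const q _).congr_of_eventuallyEq this
    have h3 := h1.unique h2
    simpa [Complex.exp_ne_zero] using h3
  have hconst : ∀ q ∈ Metric.ball (0 : ℂ) 1, K (d x₀) q = K (d x₀) 0 := fun q hq =>
    Metric.isOpen_ball.is_const_of_deriv_eq_zero (convex_ball (0 : ℂ) 1).isPreconnected
      (hKd (d x₀)) hderiv hq (Metric.mem_ball_self one_pos)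
  refine ⟨K (d x₀) 0, fun z => ?_⟩
  have h1 := hKeq (d x₀) ((d x₀)⁻¹ • z)
  rw [smul_inv_smul] at h1
  rw [← h1]
  apply hconst
  rw [mem_ball_zero_iff]
  exact Periodic.norm_qParam_lt_one hpos' (UpperHalfPlane.im_pos _)

end Main

end Fermat.Agent.S21
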