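import Mathlib
import Fermat.Prelude.Def_ModularCurve_PeriodHomPair
import Fermat.Agent.S21.MaxPrinciple

set_option autoImplicit false

open UpperHalfPlane CongruenceSubgroup Filter Topology Function Complex ModularGroup
open ModularCurve ModularCurve.Period
open scoped MatrixGroups Real Manifold ComplexConjugate

namespace Fermat.Agent.S21

/-- `z ↦ conj (B (- conj z))`. -/
noncomputable def conjJ (B : ℍ → ℂ) : ℍ → ℂ := fun z => conj (B (J • z))

lemma mdiff_conjJ {B : ℍ → ℂ} (hB : MDiff B) : MDiff (conjJ B) := by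
  intro τ
  rw [UpperHalfPlane.mdifferentiableAt_iff]
  have h1 : DifferentiableAt ℂ (B ∘ ofComplex) ((J • τ : ℍ) : ℂ) :=
    UpperHalfPlane.mdifferentiableAt_iff.mp (hB (J • τ))
  have h2 : DifferentiableAt ℂ (fun w : ℂ => (B ∘ ofComplex) (-w)) (conj (τ : ℂ)) := by
    have : DifferentiableAt ℂ (B ∘ ofComplex) (-(conj (τ : ℂ))) := by
      rw [← coe_J_smul]; exact h1
    exact this.comp (conj (τ : ℂ)) differentiable_neg.differentiableAt
  have h3 : DifferentiableAt ℂ (conj ∘ (fun w : ℂ => (B ∘ ofComplex) (-w)) ∘ conj) (τ : ℂ) :=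
    differentiableAt_conj_conj_iff.mpr h2
  refine h3.congr_of_eventuallyEq ?_
  have hopen : {z : ℂ | 0 < z.im} ∈ 𝓝 (τ : ℂ) :=
    (isOpen_lt continuous_const Complex.continuous_im).mem_nhds τ.im_pos
  filter_upwards [hopen] with z hz
  simp only [Function.comp_apply, conjJ, J_smul, ofComplex_apply_of_im_pos hz]

lemma J_mul_coe (γ : SL(2, ℤ)) :
    J * (γ : GL (Fin 2) ℝ) = ((jConjSL γ : SL(2, ℤ)) : GL (Fin 2) ℝ) * J := by
  ext i j
  fin_cases i <;> fin_cases j <;>
    simp [Matrix.mul_apply, Fin.sum_univ_two, jConjMat]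

lemma J_smul_smul (γ : SL(2, ℤ)) (z : ℍ) : J • (γ • z) = (jConjSL γ) • (J • z) := by
  show J • ((γ : GL (Fin 2) ℝ) • z) = ((jConjSL γ : SL(2, ℤ)) : GL (Fin 2) ℝ) • (J • z)
  rw [← mul_smul, ← mul_smul, J_mul_coe]

lemma tendsto_J_smul_atImInfty : Tendsto (fun w : ℍ => J • w) atImInfty atImInfty := by
  rw [atImInfty, tendsto_comap_iff]
  have : (UpperHalfPlane.im ∘ fun w : ℍ => J • w) = UpperHalfPlane.im := by
    funext w
    have : ((J • w : ℍ) : ℂ).im = (w : ℂ).im := by rw [coe_J_smul]; simp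
    exact this
  rw [this]
  exact tendsto_comap

lemma J_smul_J_smul (z : ℍ) : J • (J • z) = z := by
  rw [← mul_smul, ← sq, J_sq, one_smul]


section Key

variable {N : ℕ}

lemma mdiff_of_primitive {f : CuspForm (Gamma0 N) 2} {F : ℍ → ℂ}
    (hF : HasEquivariantPrimitive N f F) : MDiff F :=
  fun τ => UpperHalfPlane.mdifferentiableAt_iff.mpr (hF.1 τ).differentiableAt

lemma eq_zero_of_primitive_const {f : CuspForm (Gamma0 N) 2} {F : ℍ → ℂ}
    (hF : HasEquivariantPrimitive N f F) {c : ℂ} (hc : ∀ z, F z = c) : f = 0 := by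
  ext τ
  have h1 := hF.1 τ
  have h2 : (F ∘ ofComplex) = fun _ => c := by
    funext z; exact hc _
  rw [h2] at h1
  exact h1.unique (hasDerivAt_const _ _)

lemma conjJ_smul_sub {B : ℍ → ℂ} (hB : IsEquivariantPrimitive (Gamma0 N) B) (γ : Gamma0 N)
    (z : ℍ) : conjJ B ((γ : SL(2, ℤ)) • z) - conjJ B z = conj (hB.period (jConjGamma0 N γ)) := by
  unfold conjJ
  rw [← map_sub, J_smul_smul, ← hB.sub_eq_period (jConjGamma0 N γ) (J • z)]
  rfl

lemma tendsto_conjJ_smul {B : ℍ → ℂ}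
    (hB : ∀ δ : SL(2, ℤ), ∃ L : ℂ, Tendsto (fun w : ℍ => B (δ • w)) atImInfty (𝓝 L))
    (δ : SL(2, ℤ)) : ∃ L : ℂ, Tendsto (fun w : ℍ => conjJ B (δ • w)) atImInfty (𝓝 L) := by
  obtain ⟨L, hL⟩ := hB (jConjSL δ)
  refine ⟨conj L, ?_⟩
  have h1 : Tendsto (fun w : ℍ => B ((jConjSL δ) • (J • w))) atImInfty (𝓝 L) :=
    hL.comp tendsto_J_smul_atImInfty
  have h2 := (Complex.continuous_conj.tendsto L).comp h1
  refine h2.congr fun w => ?_
  simp only [Function.comp_apply, conjJ, J_smul_smul]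

/-- The key statement: `P a + ι (P b) = 0` forces `a = b = 0`. -/
theorem eq_zero_of_period_add_involution [NeZero N] {a b : CuspForm (Gamma0 N) 2} {A B : ℍ → ℂ}
    (hA : HasEquivariantPrimitive N a A) (hB : HasEquivariantPrimitive N b B)
    (h : ∀ γ : Gamma0 N, hA.2.2.1.period γ + hB.2.2.1.period (jConjGamma0 N γ) = 0) :
    a = 0 ∧ b = 0 := by
  have hAm := mdiff_of_primitive hA
  have hBm := mdiff_conjJ (mdiff_of_primitive hB)
  -- first function
  obtain ⟨c₁, hc₁⟩ : ∃ c : ℂ, ∀ z : ℍ, (fun z => A z + conjJ B z) z = c := by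
    apply const_of_re_period_zero (Γ := Gamma0 N) (hAm.add hBm)
    · intro γ hγ
      refine ⟨hA.2.2.1.period ⟨γ, hγ⟩ + conj (hB.2.2.1.period (jConjGamma0 N ⟨γ, hγ⟩)), ?_, ?_⟩
      · have := h ⟨γ, hγ⟩
        rw [eq_neg_of_add_eq_zero_right this]
        simp
      · intro z
        have h1 := hA.2.2.1.sub_eq_period ⟨γ, hγ⟩ z
        have h2 := conjJ_smul_sub hB.2.2.1 ⟨γ, hγ⟩ z
        simp only [Pi.add_apply, Pi.sub_apply, Pi.mul_apply] at h1 h2 ⊢
        rw [← h1, ← h2]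
        ring
    · intro δ
      obtain ⟨L₁, hL₁⟩ := hA.2.2.2 δ
      obtain ⟨L₂, hL₂⟩ := tendsto_conjJ_smul hB.2.2.2 δ
      exact ⟨L₁ + L₂, hL₁.add hL₂⟩
  obtain ⟨c₂, hc₂⟩ : ∃ c : ℂ, ∀ z : ℍ, (fun z => Complex.I * (A z - conjJ B z)) z = c := by
    apply const_of_re_period_zero (Γ := Gamma0 N)
      ((mdifferentiable_const (c := Complex.I)).mul (hAm.sub hBm))
    · intro γ hγ
      refine ⟨Complex.I * (hA.2.2.1.period ⟨γ, hγ⟩ -
        conj (hB.2.2.1.period (jConjGamma0 N ⟨γ, hγ⟩))), ?_, ?_⟩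
      · have := h ⟨γ, hγ⟩
        rw [eq_neg_of_add_eq_zero_right this]
        simp
      · intro z
        have h1 := hA.2.2.1.sub_eq_period ⟨γ, hγ⟩ z
        have h2 := conjJ_smul_sub hB.2.2.1 ⟨γ, hγ⟩ z
        simp only [Pi.add_apply, Pi.sub_apply, Pi.mul_apply] at h1 h2 ⊢
        rw [← h1, ← h2]
        ring
    · intro δ
      obtain ⟨L₁, hL₁⟩ := hA.2.2.2 δ
      obtain ⟨L₂, hL₂⟩ := tendsto_conjJ_smul hB.2.2.2 δ
      exact ⟨Complex.I * (L₁ - L₂), (hL₁.sub hL₂).const_mul _⟩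
  simp only at hc₁ hc₂
  have hI : Complex.I ≠ 0 := Complex.I_ne_zero
  constructor
  · apply eq_zero_of_primitive_const hA (c := (c₁ + c₂ / Complex.I) / 2)
    intro z
    rw [← hc₁ z, ← hc₂ z]
    field_simp
    ring
  · have hBc : ∀ z, conjJ B z = (c₁ - c₂ / Complex.I) / 2 := by
      intro z
      rw [← hc₁ z, ← hc₂ z]
      field_simp
      ring
    apply eq_zero_of_primitive_const hB (c := conj ((c₁ - c₂ / Complex.I) / 2))
    intro z
    rw [← hBc (J • z)]
    simp [conjJ, J_smul_J_smul]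

theorem periodHomPair_injective (N : ℕ) [NeZero N]
    (hex : ∀ f : CuspForm (Gamma0 N) 2, ∃ F : ℍ → ℂ, HasEquivariantPrimitive N f F)
    (hlin : ExistsPeriodMapLinear N) : Function.Injective (periodHomPair N) := by
  obtain ⟨pml, hpml, hdef⟩ := periodHomPair_def N hlin
  rw [injective_iff_map_eq_zero]
  rintro ⟨f, g⟩ hfg
  rw [hdef] at hfg
  obtain ⟨A, hA, hPa⟩ := periodMap_def N (f + g) (hex (f + g)).choose_spec
  obtain ⟨B, hB, hPb⟩ := periodMap_def N (f - g) (hex (f - g)).choose_spec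
  have key : pml (f + g) + charInvolution N ℂ ℂ (pml (f - g)) = 0 := by
    rw [← hfg]
    simp only [LinearMap.coprod_apply, LinearMap.comp_apply, LinearMap.add_apply,
      LinearMap.sub_apply, LinearMap.id_apply, map_add, map_sub]
    abel
  rw [hpml, hpml, hPa, hPb] at key
  have h0 := eq_zero_of_period_add_involution hA hB (fun γ => by
    have := DFunLike.congr_fun key (Additive.ofMul γ)
    simpa using this)
  obtain ⟨h1, h2⟩ := h0
  have hf : f = 0 := by
    have : (2 : ℂ) • f = 0 := by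
      have : (f + g) + (f - g) = 0 := by rw [h1, h2, add_zero]
      rw [two_smul]
      rw [← this]; abel
    exact (smul_eq_zero.mp this).resolve_left two_ne_zero
  have hg : g = 0 := by
    rw [hf, zero_add] at h1
    exact h1
  rw [hf, hg]
  rfl

end Key

end Fermat.Agent.S21
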