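import Mathlib
import Fermat.Prelude.Def_ModularCurve_PeriodMap

/-!
# Upper bound for the dimension of the space of parabolic homomorphisms

For a finite index subgroup `Γ` of a group `G` generated by two elements `s, t`, and a space `P`
of homomorphisms `Γ → ℂ` killing the `Γ`-conjugates of suitable powers of `s`, `s * t`, `t`, we show
`dim P + o(s) + o(s * t) + o(t) ≤ [G : Γ] + 2`, where `o(σ)` is the dimension of the space of
`σ`-invariant functions on `G ⧸ Γ` (the number of orbits of `σ`).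
-/

set_option autoImplicit false

open Module

namespace Fermat.Agent.S21.CohomBound

section Abstract

variable {G : Type*} [Group G] (Γ : Subgroup G)

/-- Extension by zero of an additive character of `Γ`. -/
noncomputable def ext (φ : Additive Γ →+ ℂ) (g : G) : ℂ :=
  open Classical in if h : g ∈ Γ then φ (Additive.ofMul ⟨g, h⟩) else 0

variable {Γ}

lemma ext_of_mem (φ : Additive Γ →+ ℂ) {g : G} (h : g ∈ Γ) :
    ext Γ φ g = φ (Additive.ofMul ⟨g, h⟩) := by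
  simp [ext, h]

lemma ext_mul (φ : Additive Γ →+ ℂ) {g h : G} (hg : g ∈ Γ) (hh : h ∈ Γ) :
    ext Γ φ (g * h) = ext Γ φ g + ext Γ φ h := by
  rw [ext_of_mem φ hg, ext_of_mem φ hh, ext_of_mem φ (Γ.mul_mem hg hh), ← map_add]
  rfl

lemma ext_one (φ : Additive Γ →+ ℂ) : ext Γ φ 1 = 0 := by
  rw [ext_of_mem φ Γ.one_mem]
  exact map_zero φ

lemma ext_add (φ ψ : Additive Γ →+ ℂ) (g : G) : ext Γ (φ + ψ) g = ext Γ φ g + ext Γ ψ g := by
  by_cases h : g ∈ Γ
  · simp [ext_of_mem _ h]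
  · simp [ext, h]

lemma ext_smul (c : ℂ) (φ : Additive Γ →+ ℂ) (g : G) : ext Γ (c • φ) g = c • ext Γ φ g := by
  by_cases h : g ∈ Γ
  · simp [ext_of_mem _ h]
  · simp [ext, h]

lemma coc_mem (g : G) (q : G ⧸ Γ) : (g • q).out⁻¹ * g * q.out ∈ Γ := by
  rw [mul_assoc, ← QuotientGroup.eq, QuotientGroup.out_eq']
  conv_lhs => rw [← QuotientGroup.out_eq' q]
  rfl

variable (Γ)

/-- The Shapiro cocycle attached to an additive character of `Γ`. -/
noncomputable def coc (φ : Additive Γ →+ ℂ) (g : G) (q : G ⧸ Γ) : ℂ :=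
  ext Γ φ ((g • q).out⁻¹ * g * q.out)

variable {Γ}

lemma coc_mul (φ : Additive Γ →+ ℂ) (g h : G) (q : G ⧸ Γ) :
    coc Γ φ (g * h) q = coc Γ φ g (h • q) + coc Γ φ h q := by
  unfold coc
  rw [← ext_mul φ (coc_mem g (h • q)) (coc_mem h q), mul_smul]
  congr 1
  group

variable (Γ)

/-- Translation operator on functions on `G ⧸ Γ`. -/
noncomputable def L (σ : G) : (G ⧸ Γ → ℂ) →ₗ[ℂ] (G ⧸ Γ → ℂ) :=
  LinearMap.funLeft ℂ ℂ (fun q => σ • q)

variable {Γ}

@[simp] lemma L_apply (σ : G) (v : G ⧸ Γ → ℂ) (q : G ⧸ Γ) : L Γ σ v q = v (σ • q) := rfl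

lemma L_mul (σ τ : G) : L Γ (σ * τ) = L Γ τ ∘ₗ L Γ σ := by
  ext v q
  simp [mul_smul]

lemma L_pow (σ : G) (n : ℕ) : L Γ (σ ^ n) = (L Γ σ) ^ n := by
  induction n with
  | zero => ext v q; simp
  | succ n ih =>
    rw [pow_succ, L_mul, ih, pow_succ']
    rfl

variable (Γ)

/-- The space of `σ`-invariant functions on `G ⧸ Γ`. -/
noncomputable def inv (σ : G) : Submodule ℂ (G ⧸ Γ → ℂ) := LinearMap.ker (L Γ σ - 1)

/-- The space of `σ`-coboundaries. -/
noncomputable def R (σ : G) : Submodule ℂ (G ⧸ Γ → ℂ) := LinearMap.range (L Γ σ - 1)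

variable {Γ}

lemma coc_pow (φ : Additive Γ →+ ℂ) (σ : G) (n : ℕ) :
    coc Γ φ (σ ^ n) = ∑ i ∈ Finset.range n, ((L Γ σ) ^ i) (coc Γ φ σ) := by
  induction n with
  | zero =>
    ext q
    simp only [pow_zero, Finset.range_zero, Finset.sum_empty, Pi.zero_apply]
    unfold coc
    rw [one_smul, mul_one, inv_mul_cancel, ext_one]
  | succ n ih =>
    rw [Finset.sum_range_succ, ← ih]
    ext q
    rw [pow_succ', coc_mul, ← L_pow]
    simp [add_comm]

/-- An element killed by the norm of an operator of finite order is a coboundary. -/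
lemma mem_range_sub_one_of_norm_eq_zero {V : Type*} [AddCommGroup V] [Module ℂ V]
    (A : V →ₗ[ℂ] V) (n : ℕ) (hn : 0 < n) (x : V)
    (hx : ∑ i ∈ Finset.range n, (A ^ i) x = 0) : x ∈ LinearMap.range (A - 1) := by
  have key : ∀ i : ℕ, (A ^ i) x - x ∈ LinearMap.range (A - 1) := by
    intro i
    refine ⟨(∑ j ∈ Finset.range i, A ^ j) x, ?_⟩
    have := mul_geom_sum A i
    have h2 := congrArg (fun B : V →ₗ[ℂ] V => B x) this
    simpa using h2
  have hsum : ∑ i ∈ Finset.range n, ((A ^ i) x - x) ∈ LinearMap.range (A - 1) :=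
    Submodule.sum_mem _ fun i _ => key i
  rw [Finset.sum_sub_distrib, hx, Finset.sum_const, Finset.card_range, zero_sub] at hsum
  have h3 : (-(n : ℂ)⁻¹) • (-(n • x)) ∈ LinearMap.range (A - 1) := Submodule.smul_mem _ _ hsum
  have hn' : (n : ℂ) ≠ 0 := by exact_mod_cast hn.ne'
  have h4 : (-(n : ℂ)⁻¹) • (-(n • x)) = x := by
    rw [smul_neg, neg_smul, neg_neg, ← Nat.cast_smul_eq_nsmul ℂ, smul_smul, inv_mul_cancel₀ hn',
      one_smul]
  rwa [h4] at h3

lemma coc_mem_R (φ : Additive Γ →+ ℂ) (σ : G) (n : ℕ) (hn : 0 < n)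
    (h : ∀ g : G, g⁻¹ * σ ^ n * g ∈ Γ ∧ ext Γ φ (g⁻¹ * σ ^ n * g) = 0) :
    coc Γ φ σ ∈ R Γ σ := by
  apply mem_range_sub_one_of_norm_eq_zero _ n hn
  rw [← coc_pow]
  ext q
  have hq : σ ^ n • q = q := by
    conv_lhs => rw [← QuotientGroup.out_eq' q]
    conv_rhs => rw [← QuotientGroup.out_eq' q]
    change ((σ ^ n * q.out : G) : G ⧸ Γ) = _
    rw [eq_comm, QuotientGroup.eq, ← mul_assoc]
    exact (h q.out).1
  unfold coc
  rw [hq]
  exact (h q.out).2

/-- `δ_{g q} - δ_q` lies in `R s ⊔ R u` as soon as `s, u` generate `G`. -/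
lemma single_sub_single_mem [DecidableEq (G ⧸ Γ)] (s u : G)
    (hgen : Subgroup.closure {s, u} = (⊤ : Subgroup G)) (g : G) :
    ∀ q : G ⧸ Γ, (Pi.single (g • q) (1 : ℂ) - Pi.single q (1 : ℂ) : G ⧸ Γ → ℂ) ∈ R Γ s ⊔ R Γ u := by
  have hbase : ∀ σ : G, ∀ q : G ⧸ Γ,
      (Pi.single (σ • q) (1 : ℂ) - Pi.single q (1 : ℂ) : G ⧸ Γ → ℂ) ∈ R Γ σ := by
    intro σ q
    refine ⟨-Pi.single (σ • q) (1 : ℂ), ?_⟩
    ext r
    simp only [LinearMap.sub_apply, Module.End.one_apply, Pi.sub_apply, L_apply, Pi.neg_apply,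
      Pi.single_apply, smul_left_cancel_iff]
    ring
  have hg : g ∈ Subgroup.closure {s, u} := by rw [hgen]; trivial
  induction hg using Subgroup.closure_induction with
  | mem x hx =>
    intro q
    rcases hx with rfl | hx
    · exact Submodule.mem_sup_left (hbase _ q)
    · rw [Set.mem_singleton_iff] at hx
      subst hx
      exact Submodule.mem_sup_right (hbase _ q)
  | one => intro q; simp
  | mul x y _ _ hx hy =>
    intro q
    have := Submodule.add_mem _ (hx (y • q)) (hy q)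
    rw [mul_smul]
    simpa using this
  | inv x _ hx =>
    intro q
    have := Submodule.neg_mem _ (hx (x⁻¹ • q))
    simpa using this

lemma finrank_R_sup_R [Γ.FiniteIndex] (s u : G)
    (hgen : Subgroup.closure {s, u} = (⊤ : Subgroup G)) :
    Γ.index ≤ finrank ℂ (R Γ s ⊔ R Γ u : Submodule ℂ (G ⧸ Γ → ℂ)) + 1 := by
  classical
  have : Fintype (G ⧸ Γ) := Subgroup.fintypeQuotientOfFiniteIndex
  -- the sum functional
  let S : (G ⧸ Γ → ℂ) →ₗ[ℂ] ℂ := ∑ q : G ⧸ Γ, LinearMap.proj q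
  have hS : ∀ v, S v = ∑ q, v q := fun v => by simp [S]
  have hker : LinearMap.ker S ≤ R Γ s ⊔ R Γ u := by
    intro v hv
    rw [LinearMap.mem_ker, hS] at hv
    have hv' : v = ∑ q : G ⧸ Γ, v q • (Pi.single q (1 : ℂ) - Pi.single ((1 : G) : G ⧸ Γ) (1 : ℂ)) := by
      simp only [smul_sub, Finset.sum_sub_distrib, ← Finset.sum_smul, hv, zero_smul, sub_zero]
      ext r
      simp [Finset.sum_apply, Pi.single_apply]
    rw [hv']
    refine Submodule.sum_mem _ fun q _ => Submodule.smul_mem _ _ ?_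
    have := single_sub_single_mem (Γ := Γ) s u hgen q.out ((1 : G) : G ⧸ Γ)
    have hq : q.out • ((1 : G) : G ⧸ Γ) = q := by
      conv_rhs => rw [← QuotientGroup.out_eq' q]
      change ((q.out * 1 : G) : G ⧸ Γ) = _
      rw [mul_one]
    rwa [hq] at this
  have h1 := LinearMap.finrank_range_add_finrank_ker S
  have h2 : finrank ℂ (LinearMap.range S) ≤ 1 := by
    simpa using Submodule.finrank_le (LinearMap.range S)
  have h3 := Submodule.finrank_mono hker
  have h4 : finrank ℂ (G ⧸ Γ → ℂ) = Γ.index := by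
    rw [Module.finrank_fintype_fun_eq_card, Subgroup.index, Nat.card_eq_fintype_card]
  omega

lemma finrank_R_add_finrank_inv [Γ.FiniteIndex] (σ : G) :
    finrank ℂ (R Γ σ) + finrank ℂ (inv Γ σ) = Γ.index := by
  classical
  have : Fintype (G ⧸ Γ) := Subgroup.fintypeQuotientOfFiniteIndex
  have h4 : finrank ℂ (G ⧸ Γ → ℂ) = Γ.index := by
    rw [Module.finrank_fintype_fun_eq_card, Subgroup.index, Nat.card_eq_fintype_card]
  rw [← h4]
  exact LinearMap.finrank_range_add_finrank_ker (L Γ σ - 1)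

variable (Γ)

/-- `(φ, v) ↦ c_φ(σ) + (L_σ - 1) v`, i.e. `(L_σ - 1) u` for the function `u = u_φ + v` on `G`. -/
noncomputable def diffMap (σ : G) : ((Additive Γ →+ ℂ) × (G ⧸ Γ → ℂ)) →ₗ[ℂ] (G ⧸ Γ → ℂ) where
  toFun x := coc Γ x.1 σ + (L Γ σ - 1) x.2
  map_add' x y := by
    ext q
    simp only [coc, Prod.fst_add, ext_add, Prod.snd_add, map_add, Pi.add_apply]
    ring
  map_smul' c x := by
    ext q
    simp only [coc, Prod.smul_fst, ext_smul, Prod.smul_snd, map_smul, Pi.add_apply, Pi.smul_apply,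
      RingHom.id_apply, smul_add]

variable {Γ}

lemma diffMap_apply (σ : G) (x : (Additive Γ →+ ℂ) × (G ⧸ Γ → ℂ)) (q : G ⧸ Γ) :
    diffMap Γ σ x q = coc Γ x.1 σ q + (x.2 (σ • q) - x.2 q) := rfl

lemma diffMap_mul (σ τ : G) (x : (Additive Γ →+ ℂ) × (G ⧸ Γ → ℂ)) (q : G ⧸ Γ) :
    diffMap Γ (σ * τ) x q = diffMap Γ σ x (τ • q) + diffMap Γ τ x q := by
  simp only [diffMap_apply, coc_mul, mul_smul]
  ring

lemma diffMap_one (x : (Additive Γ →+ ℂ) × (G ⧸ Γ → ℂ)) (q : G ⧸ Γ) :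
    diffMap Γ 1 x q = 0 := by
  have := diffMap_mul 1 1 x q
  simp only [mul_one, one_smul] at this
  linear_combination -this

/-- If `(L_s - 1) u = 0 = (L_u - 1) u` for generators `s, u`, then `(L_g - 1) u = 0` for all `g`. -/
lemma diffMap_eq_zero_of_gen (s u : G) (hgen : Subgroup.closure {s, u} = (⊤ : Subgroup G))
    (x : (Additive Γ →+ ℂ) × (G ⧸ Γ → ℂ)) (hs : diffMap Γ s x = 0) (hu : diffMap Γ u x = 0)
    (g : G) : ∀ q, diffMap Γ g x q = 0 := by
  have hg : g ∈ Subgroup.closure {s, u} := by rw [hgen]; trivial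
  induction hg using Subgroup.closure_induction with
  | mem y hy =>
    intro q
    rcases hy with rfl | hy
    · rw [hs]; rfl
    · rw [Set.mem_singleton_iff] at hy
      subst hy
      rw [hu]; rfl
  | one => intro q; exact diffMap_one x q
  | mul y z _ _ hy hz =>
    intro q
    rw [diffMap_mul, hy, hz, add_zero]
  | inv y _ hy =>
    intro q
    have h1 := diffMap_mul y y⁻¹ x q
    rw [mul_inv_cancel, diffMap_one, hy, zero_add] at h1
    exact h1.symm

lemma eq_zero_of_diffMap_eq_zero (x : (Additive Γ →+ ℂ) × (G ⧸ Γ → ℂ))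
    (h : ∀ g q, diffMap Γ g x q = 0) (h0 : x.2 ((1 : G) : G ⧸ Γ) = 0) : x = 0 := by
  obtain ⟨φ, v⟩ := x
  simp only at h0
  -- first `φ = 0`
  set q₀ : G ⧸ Γ := ((1 : G) : G ⧸ Γ) with hq₀
  have hout : q₀.out ∈ Γ := by
    have : ((q₀.out : G) : G ⧸ Γ) = ((1 : G) : G ⧸ Γ) := QuotientGroup.out_eq' q₀
    rw [QuotientGroup.eq] at this
    simpa using this
  have hφ : φ = 0 := by
    refine AddMonoidHom.ext fun γ' => ?_
    obtain ⟨γ, hγ⟩ : ∃ γ : G, ∃ hγ : γ ∈ Γ, γ' = Additive.ofMul ⟨γ, hγ⟩ :=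
      ⟨(Additive.toMul γ').1, (Additive.toMul γ').2, rfl⟩
    obtain ⟨hγ, rfl⟩ := hγ
    change φ (Additive.ofMul ⟨γ, hγ⟩) = 0
    have hfix : γ • q₀ = q₀ := by
      change ((γ * 1 : G) : G ⧸ Γ) = ((1 : G) : G ⧸ Γ)
      rw [QuotientGroup.eq]
      simpa using hγ
    have h1 := h γ q₀
    rw [diffMap_apply, hfix, sub_self, add_zero] at h1
    unfold coc at h1
    rw [hfix, ext_mul φ (Γ.mul_mem (Γ.inv_mem hout) hγ) hout,
      ext_mul φ (Γ.inv_mem hout) hγ] at h1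
    have h2 : ext Γ φ (q₀.out⁻¹) + ext Γ φ q₀.out = 0 := by
      rw [← ext_mul φ (Γ.inv_mem hout) hout, inv_mul_cancel, ext_one]
    rw [← ext_of_mem φ hγ]
    linear_combination h1 - h2
  subst hφ
  have hv : v = 0 := by
    ext q
    have h1 := h q.out q₀
    have hq : q.out • q₀ = q := by
      conv_rhs => rw [← QuotientGroup.out_eq' q]
      change ((q.out * 1 : G) : G ⧸ Γ) = _
      rw [mul_one]
    rw [diffMap_apply, hq] at h1
    have h3 : coc Γ (0 : Additive Γ →+ ℂ) q.out q₀ = 0 := by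
      unfold coc
      rw [ext_of_mem _ (coc_mem _ _)]
      rfl
    simp only at h1
    rw [h3, h0] at h1
    simpa using h1
  rw [hv]
  rfl

/-- The relation map `(a, e, c) ↦ e - a - c`. -/
noncomputable def relMap {V : Type*} [AddCommGroup V] [Module ℂ V] (A B C : Submodule ℂ V) :
    (A × B × C) →ₗ[ℂ] V :=
  B.subtype ∘ₗ LinearMap.fst ℂ _ _ ∘ₗ LinearMap.snd ℂ _ _
    - A.subtype ∘ₗ LinearMap.fst ℂ _ _
    - C.subtype ∘ₗ LinearMap.snd ℂ _ _ ∘ₗ LinearMap.snd ℂ _ _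

lemma relMap_apply {V : Type*} [AddCommGroup V] [Module ℂ V] (A B C : Submodule ℂ V)
    (x : A × B × C) : relMap A B C x = (x.2.1 : V) - (x.1 : V) - (x.2.2 : V) := rfl

lemma finrank_ker_relMap {V : Type*} [AddCommGroup V] [Module ℂ V] [FiniteDimensional ℂ V]
    (A B C : Submodule ℂ V) :
    finrank ℂ (A ⊔ B : Submodule ℂ V) + finrank ℂ (LinearMap.ker (relMap A B C))
      ≤ finrank ℂ A + finrank ℂ B + finrank ℂ C := by
  have h2 := LinearMap.finrank_range_add_finrank_ker (relMap A B C)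
  rw [Module.finrank_prod, Module.finrank_prod] at h2
  have h3 : A ⊔ B ≤ LinearMap.range (relMap A B C) := by
    rw [sup_le_iff]
    constructor
    · intro a ha
      exact ⟨(-⟨a, ha⟩, 0, 0), by simp [relMap_apply]⟩
    · intro a ha
      exact ⟨(0, ⟨a, ha⟩, 0), by simp [relMap_apply]⟩
  have h4 := Submodule.finrank_mono h3
  omega

/-- Linear algebra core of the count. -/
lemma abstract_count {V W : Type*} [AddCommGroup V] [Module ℂ V] [FiniteDimensional ℂ V]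
    [AddCommGroup W] [Module ℂ W] (A B C : Submodule ℂ V) (a e : W →ₗ[ℂ] V) (ev : W →ₗ[ℂ] ℂ)
    (ha : ∀ x, a x ∈ A) (he : ∀ x, e x ∈ B) (hc : ∀ x, (e - a) x ∈ C)
    (hinj : ∀ x, a x = 0 → e x = 0 → ev x = 0 → x = 0) :
    Module.Finite ℂ W ∧
      finrank ℂ W + finrank ℂ (A ⊔ B : Submodule ℂ V)
        ≤ finrank ℂ A + finrank ℂ B + finrank ℂ C + 1 := by
  let jA : W →ₗ[ℂ] A := LinearMap.codRestrict A a ha
  let jB : W →ₗ[ℂ] B := LinearMap.codRestrict B e he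
  let jC : W →ₗ[ℂ] C := LinearMap.codRestrict C (e - a) hc
  have hf : ∀ x, (jA.prod (jB.prod jC)) x ∈ LinearMap.ker (relMap A B C) := by
    intro x
    rw [LinearMap.mem_ker, relMap_apply]
    simp [jA, jB, jC]
  let J : W →ₗ[ℂ] (LinearMap.ker (relMap A B C) × ℂ) :=
    (LinearMap.codRestrict _ (jA.prod (jB.prod jC)) hf).prod ev
  have hJ : Function.Injective J := by
    refine (injective_iff_map_eq_zero J).mpr ?_
    intro x hx
    have hx1 : a x = 0 := by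
      have := congrArg (fun y => ((y.1 : A × B × C).1 : V)) hx
      simpa [J, jA] using this
    have hx2 : e x = 0 := by
      have := congrArg (fun y => ((y.1 : A × B × C).2.1 : V)) hx
      simpa [J, jB] using this
    have hx3 : ev x = 0 := by
      have := congrArg (fun y => y.2) hx
      simpa [J] using this
    exact hinj x hx1 hx2 hx3
  have hfin : Module.Finite ℂ W := Module.Finite.of_injective J hJ
  refine ⟨hfin, ?_⟩
  have h1 := LinearMap.finrank_le_finrank_of_injective hJ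
  rw [Module.finrank_prod, Module.finrank_self] at h1
  have h2 := finrank_ker_relMap A B C
  omega

/-- **Abstract bound.** -/
theorem finrank_add_le [Γ.FiniteIndex] (s t : G)
    (hgen : Subgroup.closure {s, t} = (⊤ : Subgroup G))
    (P : Submodule ℂ (Additive Γ →+ ℂ))
    (hs : ∃ n : ℕ, 0 < n ∧ ∀ φ ∈ P, ∀ g : G, g⁻¹ * s ^ n * g ∈ Γ ∧ ext Γ φ (g⁻¹ * s ^ n * g) = 0)
    (hu : ∃ n : ℕ, 0 < n ∧ ∀ φ ∈ P, ∀ g : G,
      g⁻¹ * (s * t) ^ n * g ∈ Γ ∧ ext Γ φ (g⁻¹ * (s * t) ^ n * g) = 0)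
    (ht : ∃ n : ℕ, 0 < n ∧ ∀ φ ∈ P, ∀ g : G, g⁻¹ * t ^ n * g ∈ Γ ∧ ext Γ φ (g⁻¹ * t ^ n * g) = 0) :
    Module.Finite ℂ P ∧
    finrank ℂ P + finrank ℂ (inv Γ s) + finrank ℂ (inv Γ (s * t)) + finrank ℂ (inv Γ t)
      ≤ Γ.index + 2 := by
  classical
  have : Fintype (G ⧸ Γ) := Subgroup.fintypeQuotientOfFiniteIndex
  have hgen' : Subgroup.closure {s, s * t} = (⊤ : Subgroup G) := by
    rw [eq_top_iff, ← hgen, Subgroup.closure_le]
    have h1 : s ∈ Subgroup.closure {s, s * t} := Subgroup.subset_closure (by simp)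
    have h2 : s * t ∈ Subgroup.closure {s, s * t} := Subgroup.subset_closure (by simp)
    rintro x (rfl | hx)
    · exact h1
    · rw [Set.mem_singleton_iff] at hx
      subst hx
      have h3 := Subgroup.mul_mem _ (Subgroup.inv_mem _ h1) h2
      simpa using h3
  obtain ⟨ns, hns, hs⟩ := hs
  obtain ⟨nu, hnu, hu⟩ := hu
  obtain ⟨nt, hnt, ht⟩ := ht
  -- the three difference maps restricted to `P × V`
  let ι : (P × (G ⧸ Γ → ℂ)) →ₗ[ℂ] ((Additive Γ →+ ℂ) × (G ⧸ Γ → ℂ)) :=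
    LinearMap.prodMap P.subtype LinearMap.id
  have hmem : ∀ (σ : G) (n : ℕ), 0 < n →
      (∀ φ ∈ P, ∀ g : G, g⁻¹ * σ ^ n * g ∈ Γ ∧ ext Γ φ (g⁻¹ * σ ^ n * g) = 0) →
      ∀ x, (diffMap Γ σ ∘ₗ ι) x ∈ R Γ σ := by
    intro σ n hn h x
    exact Submodule.add_mem _ (coc_mem_R _ σ n hn (h _ x.1.2)) ⟨x.2, rfl⟩
  have hC : ∀ x, (diffMap Γ (s * t) ∘ₗ ι - diffMap Γ s ∘ₗ ι) x ∈ R Γ t := by
    intro x
    have h1 : (diffMap Γ (s * t) ∘ₗ ι - diffMap Γ s ∘ₗ ι) x
        = (L Γ t - 1) (diffMap Γ s (ι x)) + (diffMap Γ t ∘ₗ ι) x := by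
      ext q
      simp only [LinearMap.sub_apply, LinearMap.comp_apply, Pi.sub_apply, Pi.add_apply,
        diffMap_mul, L_apply, Module.End.one_apply]
      ring
    rw [h1]
    exact Submodule.add_mem _ ⟨_, rfl⟩ (hmem t nt hnt ht x)
  have hinj : ∀ x, (diffMap Γ s ∘ₗ ι) x = 0 → (diffMap Γ (s * t) ∘ₗ ι) x = 0 →
      (LinearMap.proj ((1 : G) : G ⧸ Γ) ∘ₗ LinearMap.snd ℂ P (G ⧸ Γ → ℂ)) x = 0 → x = 0 := by
    intro x hx1 hx2 hx3
    have h0 := eq_zero_of_diffMap_eq_zero (ι x)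
      (diffMap_eq_zero_of_gen s (s * t) hgen' (ι x) hx1 hx2) hx3
    have h1 : (x.1 : Additive Γ →+ ℂ) = 0 := congrArg Prod.fst h0
    have h2 : x.2 = 0 := congrArg Prod.snd h0
    exact Prod.ext (Subtype.ext h1) h2
  obtain ⟨hfin, h1⟩ := abstract_count (R Γ s) (R Γ (s * t)) (R Γ t) (diffMap Γ s ∘ₗ ι)
    (diffMap Γ (s * t) ∘ₗ ι) (LinearMap.proj ((1 : G) : G ⧸ Γ) ∘ₗ LinearMap.snd ℂ P (G ⧸ Γ → ℂ))
    (hmem s ns hns hs) (hmem (s * t) nu hnu hu) hC hinj
  have hfinP : Module.Finite ℂ P :=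
    Module.Finite.of_injective (LinearMap.inl ℂ P (G ⧸ Γ → ℂ)) LinearMap.inl_injective
  refine ⟨hfinP, ?_⟩
  rw [Module.finrank_prod] at h1
  have h5 := finrank_R_sup_R (Γ := Γ) s (s * t) hgen'
  have h6 := finrank_R_add_finrank_inv (Γ := Γ) s
  have h7 := finrank_R_add_finrank_inv (Γ := Γ) (s * t)
  have h8 := finrank_R_add_finrank_inv (Γ := Γ) t
  have h9 : finrank ℂ (G ⧸ Γ → ℂ) = Γ.index := by
    rw [Module.finrank_fintype_fun_eq_card, Subgroup.index, Nat.card_eq_fintype_card]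
  omega

end Abstract

section SL2Z

open scoped MatrixGroups
open ModularGroup ModularCurve.Period

lemma S_pow_four : (S : SL(2, ℤ)) ^ 4 = 1 := by
  apply Subtype.ext
  rw [Matrix.SpecialLinearGroup.coe_pow, coe_S]
  simp [pow_succ, Matrix.one_fin_two]

lemma ST_pow_six : ((S * T : SL(2, ℤ))) ^ 6 = 1 := by
  apply Subtype.ext
  rw [Matrix.SpecialLinearGroup.coe_pow, Matrix.SpecialLinearGroup.coe_mul, coe_S, coe_T]
  simp [pow_succ, Matrix.one_fin_two]

/-- **Cohomological bound**: `dim Hom_par(Γ, ℂ) + o(S) + o(ST) + o(T) ≤ [SL₂(ℤ) : Γ] + 2`. -/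
theorem finrank_parabolicHoms_add_le (Γ : Subgroup SL(2, ℤ)) [Γ.FiniteIndex] :
    Module.Finite ℂ (parabolicHoms ℂ Γ ℂ) ∧
    finrank ℂ (parabolicHoms ℂ Γ ℂ) + finrank ℂ (inv Γ S) + finrank ℂ (inv Γ (S * T))
      + finrank ℂ (inv Γ T) ≤ Γ.index + 2 := by
  apply finrank_add_le S T SpecialLinearGroup.SL2Z_generators
  · refine ⟨4, by norm_num, fun φ _ g => ?_⟩
    rw [S_pow_four, mul_one, inv_mul_cancel]
    exact ⟨Γ.one_mem, ext_one φ⟩
  · refine ⟨6, by norm_num, fun φ _ g => ?_⟩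
    rw [ST_pow_six, mul_one, inv_mul_cancel]
    exact ⟨Γ.one_mem, ext_one φ⟩
  · have hfi : Γ.normalCore.FiniteIndex := inferInstance
    refine ⟨Γ.normalCore.index, Nat.pos_of_ne_zero hfi.index_ne_zero, fun φ hφ g => ?_⟩
    have h1 : T ^ Γ.normalCore.index ∈ Γ.normalCore := Subgroup.pow_index_mem _ _
    have h2 : g⁻¹ * T ^ Γ.normalCore.index * g ∈ Γ := by
      have := (Subgroup.normalCore_normal Γ).conj_mem _ h1 g⁻¹
      rw [inv_inv] at this
      exact Subgroup.normalCore_le Γ this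
    refine ⟨h2, ?_⟩
    rw [ext_of_mem φ h2]
    apply (mem_parabolicHoms_iff.mp hφ)
    simp only [Matrix.SpecialLinearGroup.coe_mul]
    rw [Matrix.trace_mul_comm, ← Matrix.mul_assoc, ← Matrix.SpecialLinearGroup.coe_mul,
      mul_inv_cancel, Matrix.SpecialLinearGroup.coe_one, Matrix.one_mul]
    have h3 := coe_T_zpow (Γ.normalCore.index : ℤ)
    rw [zpow_natCast] at h3
    rw [h3]
    simp [Matrix.trace_fin_two]

end SL2Z

end Fermat.Agent.S21.CohomBound
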