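import Mathlib
import Fermat.Agent.S21.CohomBound

/-!
# Orbit counts

Translation of the invariants dimensions of `CohomBound` into orbit / fixed point counts.
-/

set_option autoImplicit false

open Module MulAction

namespace Fermat.Agent.S21.OrbitCount

open Fermat.Agent.S21.CohomBound

section General

variable {G : Type*} [Group G] {Q : Type*} [MulAction G Q]

/-- Burnside's lemma for a cyclic group generated by an element of finite order. -/
lemma burnside_zpowers [Finite Q] (σ : G) (hσ : IsOfFinOrder σ) :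
    ∑ i ∈ Finset.range (orderOf σ), Nat.card (fixedBy Q (σ ^ i))
      = Nat.card (orbitRel.Quotient (Subgroup.zpowers σ) Q) * orderOf σ := by
  classical
  have : Fintype Q := Fintype.ofFinite Q
  have : Fintype (Subgroup.zpowers σ) := Fintype.ofEquiv _ (finEquivZPowers hσ)
  have : Fintype (orbitRel.Quotient (Subgroup.zpowers σ) Q) := Fintype.ofFinite _
  have h := sum_card_fixedBy_eq_card_orbits_mul_card_group (Subgroup.zpowers σ) Q
  simp only [← Nat.card_eq_fintype_card, Nat.card_zpowers] at h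
  change _ = Nat.card (orbitRel.Quotient (Subgroup.zpowers σ) Q) * orderOf σ at h
  rw [← h, ← Fin.sum_univ_eq_sum_range (fun i => Nat.card (fixedBy Q (σ ^ i))),
    ← Equiv.sum_comp (finEquivZPowers hσ)]
  refine Finset.sum_congr rfl fun i _ => ?_
  rw [finEquivZPowers_apply]
  rfl

end General

section Invariants

variable {G : Type*} [Group G] (Γ : Subgroup G)

/-- The dimension of the space of `σ`-invariant functions is the number of `σ`-orbits. -/
lemma finrank_inv_eq_card_orbits [Γ.FiniteIndex] (σ : G) :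
    finrank ℂ (inv Γ σ) = Nat.card (orbitRel.Quotient (Subgroup.zpowers σ) (G ⧸ Γ)) := by
  classical
  have : Fintype (G ⧸ Γ) := Subgroup.fintypeQuotientOfFiniteIndex
  have : Fintype (orbitRel.Quotient (Subgroup.zpowers σ) (G ⧸ Γ)) := Fintype.ofFinite _
  let π : G ⧸ Γ → orbitRel.Quotient (Subgroup.zpowers σ) (G ⧸ Γ) := Quotient.mk''
  have hπ : Function.Surjective π := Quotient.mk''_surjective
  have hinj : Function.Injective (LinearMap.funLeft ℂ ℂ π) :=
    LinearMap.funLeft_injective_of_surjective ℂ ℂ π hπ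
  have hrange : LinearMap.range (LinearMap.funLeft ℂ ℂ π) = inv Γ σ := by
    apply le_antisymm
    · rintro _ ⟨w, rfl⟩
      rw [inv, LinearMap.mem_ker]
      ext q
      simp only [LinearMap.sub_apply, Module.End.one_apply, Pi.sub_apply, CohomBound.L_apply,
        LinearMap.funLeft_apply, Pi.zero_apply]
      have : π (σ • q) = π q := by
        apply Quotient.sound'
        exact ⟨⟨σ, Subgroup.mem_zpowers σ⟩, rfl⟩
      rw [this, sub_self]
    · intro v hv
      rw [inv, LinearMap.mem_ker] at hv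
      have hv1 : ∀ q, v (σ • q) = v q := by
        intro q
        have := congrFun hv q
        simp only [LinearMap.sub_apply, Module.End.one_apply, Pi.sub_apply, CohomBound.L_apply,
          Pi.zero_apply] at this
        exact sub_eq_zero.mp this
      have hv2 : ∀ g ∈ Subgroup.zpowers σ, ∀ q, v (g • q) = v q := by
        intro g hg
        have hle : Subgroup.zpowers σ ≤
            { carrier := {g | ∀ q, v (g • q) = v q}
              mul_mem' := fun {a b} ha hb q => by rw [mul_smul, ha, hb]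
              one_mem' := fun q => by rw [one_smul]
              inv_mem' := fun {a} ha q => by
                have := ha (a⁻¹ • q)
                rw [smul_inv_smul] at this
                exact this.symm } := by
          rw [Subgroup.zpowers_le]
          exact hv1
        exact hle hg
      refine ⟨Quotient.lift v ?_, ?_⟩
      · rintro a b ⟨g, rfl⟩
        exact hv2 g.1 g.2 b
      · ext q
        rfl
  rw [← hrange, LinearMap.finrank_range_of_inj hinj, Module.finrank_fintype_fun_eq_card,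
    Nat.card_eq_fintype_card]

end Invariants

section SL2Z

open scoped MatrixGroups
open ModularGroup ModularCurve.Period

lemma S_sq : (S : SL(2, ℤ)) ^ 2 = -1 := by
  apply Subtype.ext
  rw [Matrix.SpecialLinearGroup.coe_pow, coe_S]
  simp [pow_succ, Matrix.one_fin_two]

lemma ST_cube : ((S * T : SL(2, ℤ))) ^ 3 = -1 := by
  apply Subtype.ext
  rw [Matrix.SpecialLinearGroup.coe_pow, Matrix.SpecialLinearGroup.coe_mul, coe_S, coe_T]
  simp [pow_succ, Matrix.one_fin_two]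

lemma neg_one_ne_one : (-1 : SL(2, ℤ)) ≠ 1 := by
  intro h
  have := congrArg (fun g : SL(2, ℤ) => (g : Matrix (Fin 2) (Fin 2) ℤ) 0 0) h
  simp at this

lemma ST_sq_ne_one : ((S * T : SL(2, ℤ))) ^ 2 ≠ 1 := by
  intro h
  have := congrArg (fun g : SL(2, ℤ) => (g : Matrix (Fin 2) (Fin 2) ℤ) 0 0) h
  simp [pow_succ, coe_S, coe_T] at this

lemma orderOf_S : orderOf (S : SL(2, ℤ)) = 4 := by
  apply orderOf_eq_of_pow_and_pow_div_prime (by norm_num) S_pow_four
  intro p hp hp4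
  have hle : p ≤ 4 := Nat.le_of_dvd (by norm_num) hp4
  interval_cases p
  · exact absurd hp (by norm_num)
  · exact absurd hp (by norm_num)
  · rw [show 4 / 2 = 2 from rfl, S_sq]; exact neg_one_ne_one
  · exact absurd hp4 (by norm_num)
  · exact absurd hp (by norm_num)

lemma orderOf_ST : orderOf (S * T : SL(2, ℤ)) = 6 := by
  apply orderOf_eq_of_pow_and_pow_div_prime (by norm_num) ST_pow_six
  intro p hp hp6
  have hle : p ≤ 6 := Nat.le_of_dvd (by norm_num) hp6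
  interval_cases p
  · exact absurd hp (by norm_num)
  · exact absurd hp (by norm_num)
  · rw [show 6 / 2 = 3 from rfl, ST_cube]; exact neg_one_ne_one
  · rw [show 6 / 3 = 2 from rfl]; exact ST_sq_ne_one
  · exact absurd hp6 (by norm_num)
  · exact absurd hp6 (by norm_num)
  · exact absurd hp (by norm_num)

variable (Γ : Subgroup SL(2, ℤ))

lemma neg_one_smul_quot (hneg : (-1 : SL(2, ℤ)) ∈ Γ) (q : SL(2, ℤ) ⧸ Γ) :
    (-1 : SL(2, ℤ)) • q = q := by
  induction q using QuotientGroup.induction_on with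
  | H g =>
    change (((-1 : SL(2, ℤ)) * g : SL(2, ℤ)) : SL(2, ℤ) ⧸ Γ) = _
    rw [eq_comm, QuotientGroup.eq]
    have : g⁻¹ * (-1 * g) = -1 := by
      rw [neg_mul, one_mul, mul_neg, inv_mul_cancel]
    rw [this]
    exact hneg

lemma fixedBy_neg_one_mul (hneg : (-1 : SL(2, ℤ)) ∈ Γ) (g : SL(2, ℤ)) :
    fixedBy (SL(2, ℤ) ⧸ Γ) (-1 * g) = fixedBy (SL(2, ℤ) ⧸ Γ) g := by
  ext q
  simp only [mem_fixedBy, mul_smul, neg_one_smul_quot Γ hneg]

lemma card_fixedBy_one : Nat.card (fixedBy (SL(2, ℤ) ⧸ Γ) (1 : SL(2, ℤ))) = Γ.index := by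
  rw [fixedBy_one_eq_univ, Nat.card_coe_set_eq, Set.ncard_univ]
  rfl

lemma two_mul_card_orbits_S [Γ.FiniteIndex] (hneg : (-1 : SL(2, ℤ)) ∈ Γ) :
    2 * Nat.card (orbitRel.Quotient (Subgroup.zpowers (S : SL(2, ℤ))) (SL(2, ℤ) ⧸ Γ))
      = Γ.index + Nat.card (fixedBy (SL(2, ℤ) ⧸ Γ) (S : SL(2, ℤ))) := by
  have hfin : IsOfFinOrder (S : SL(2, ℤ)) := isOfFinOrder_iff_pow_eq_one.mpr ⟨4, by norm_num, S_pow_four⟩
  have h := burnside_zpowers (Q := SL(2, ℤ) ⧸ Γ) (S : SL(2, ℤ)) hfin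
  rw [orderOf_S] at h
  simp only [Finset.sum_range_succ, Finset.range_zero, Finset.sum_empty, zero_add] at h
  have h3 : (S : SL(2, ℤ)) ^ 3 = -1 * S := by rw [pow_succ, S_sq]
  have h2 : (S : SL(2, ℤ)) ^ 2 = -1 * 1 := by rw [S_sq, mul_one]
  rw [pow_zero, pow_one, h3, h2, fixedBy_neg_one_mul Γ hneg, fixedBy_neg_one_mul Γ hneg,
    card_fixedBy_one] at h
  have h' : _ = Nat.card (orbitRel.Quotient (Subgroup.zpowers (S : SL(2, ℤ))) (SL(2, ℤ) ⧸ Γ)) * 4 := h
  omega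

lemma three_mul_card_orbits_ST [Γ.FiniteIndex] (hneg : (-1 : SL(2, ℤ)) ∈ Γ) :
    3 * Nat.card (orbitRel.Quotient (Subgroup.zpowers (S * T : SL(2, ℤ))) (SL(2, ℤ) ⧸ Γ))
      = Γ.index + 2 * Nat.card (fixedBy (SL(2, ℤ) ⧸ Γ) (S * T : SL(2, ℤ))) := by
  have hfin : IsOfFinOrder (S * T : SL(2, ℤ)) :=
    isOfFinOrder_iff_pow_eq_one.mpr ⟨6, by norm_num, ST_pow_six⟩
  have h := burnside_zpowers (Q := SL(2, ℤ) ⧸ Γ) (S * T : SL(2, ℤ)) hfin
  rw [orderOf_ST] at h
  simp only [Finset.sum_range_succ, Finset.range_zero, Finset.sum_empty, zero_add] at h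
  have h3 : (S * T : SL(2, ℤ)) ^ 3 = -1 * 1 := by rw [ST_cube, mul_one]
  have h4 : (S * T : SL(2, ℤ)) ^ 4 = -1 * (S * T) := by rw [pow_succ, ST_cube]
  have h5 : (S * T : SL(2, ℤ)) ^ 5 = (S * T)⁻¹ := by
    rw [eq_inv_iff_mul_eq_one, ← pow_succ, ST_pow_six]
  have h2 : (S * T : SL(2, ℤ)) ^ 2 = -1 * (S * T)⁻¹ := by
    rw [← h5, ← ST_cube, ← pow_add]
    have : (S * T : SL(2, ℤ)) ^ (3 + 5) = (S * T) ^ 6 * (S * T) ^ 2 := by rw [← pow_add]
    rw [this, ST_pow_six, one_mul]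
  rw [pow_zero, pow_one, h2, h3, h4, h5, fixedBy_neg_one_mul Γ hneg, fixedBy_neg_one_mul Γ hneg,
    fixedBy_neg_one_mul Γ hneg, fixedBy_inv, card_fixedBy_one] at h
  have h' : _ = Nat.card (orbitRel.Quotient (Subgroup.zpowers (S * T : SL(2, ℤ))) (SL(2, ℤ) ⧸ Γ)) * 6 :=
    h
  omega

/-- **Cohomological bound**, in terms of the index `μ`, the numbers `e₂`, `e₃` of fixed points of
`S`, `S * T` and the number `c` of orbits of `T` on `SL(2, ℤ) ⧸ Γ`:
`dim Hom_par(Γ, ℂ) ≤ 2 + μ / 6 - e₂ / 2 - 2 e₃ / 3 - c`. -/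
theorem finrank_parabolicHoms_le [Γ.FiniteIndex] (hneg : (-1 : SL(2, ℤ)) ∈ Γ) :
    (finrank ℂ (parabolicHoms ℂ Γ ℂ) : ℚ) ≤
      2 + (Nat.card (SL(2, ℤ) ⧸ Γ) : ℚ) / 6
        - (Nat.card (fixedBy (SL(2, ℤ) ⧸ Γ) (S : SL(2, ℤ))) : ℚ) / 2
        - 2 * (Nat.card (fixedBy (SL(2, ℤ) ⧸ Γ) (S * T : SL(2, ℤ))) : ℚ) / 3
        - (Nat.card (orbitRel.Quotient (Subgroup.zpowers (T : SL(2, ℤ))) (SL(2, ℤ) ⧸ Γ)) : ℚ) := by
  have h := (finrank_parabolicHoms_add_le Γ).2
  rw [finrank_inv_eq_card_orbits, finrank_inv_eq_card_orbits, finrank_inv_eq_card_orbits] at h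
  have h2 := two_mul_card_orbits_S Γ hneg
  have h3 := three_mul_card_orbits_ST Γ hneg
  have hμ : Nat.card (SL(2, ℤ) ⧸ Γ) = Γ.index := rfl
  rw [hμ]
  have h' : ((finrank ℂ (parabolicHoms ℂ Γ ℂ) : ℚ)
      + Nat.card (orbitRel.Quotient (Subgroup.zpowers (S : SL(2, ℤ))) (SL(2, ℤ) ⧸ Γ))
      + Nat.card (orbitRel.Quotient (Subgroup.zpowers (S * T : SL(2, ℤ))) (SL(2, ℤ) ⧸ Γ))
      + Nat.card (orbitRel.Quotient (Subgroup.zpowers (T : SL(2, ℤ))) (SL(2, ℤ) ⧸ Γ)))
      ≤ Γ.index + 2 := by exact_mod_cast h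
  have h2' : (2 : ℚ) * Nat.card (orbitRel.Quotient (Subgroup.zpowers (S : SL(2, ℤ))) (SL(2, ℤ) ⧸ Γ))
      = Γ.index + Nat.card (fixedBy (SL(2, ℤ) ⧸ Γ) (S : SL(2, ℤ))) := by exact_mod_cast h2
  have h3' : (3 : ℚ) *
      Nat.card (orbitRel.Quotient (Subgroup.zpowers (S * T : SL(2, ℤ))) (SL(2, ℤ) ⧸ Γ))
      = Γ.index + 2 * Nat.card (fixedBy (SL(2, ℤ) ⧸ Γ) (S * T : SL(2, ℤ))) := by exact_mod_cast h3
  linarith

lemma neg_one_mem_Gamma0 (N : ℕ) : (-1 : SL(2, ℤ)) ∈ CongruenceSubgroup.Gamma0 N := by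
  rw [CongruenceSubgroup.Gamma0_mem]
  simp

/-- The bound for `Γ₀(N)`. -/
theorem finrank_parabolicHoms_Gamma0_le (N : ℕ) [NeZero N] :
    (finrank ℂ (parabolicHoms ℂ (CongruenceSubgroup.Gamma0 N) ℂ) : ℚ) ≤
      2 + (Nat.card (SL(2, ℤ) ⧸ CongruenceSubgroup.Gamma0 N) : ℚ) / 6
        - (Nat.card (fixedBy (SL(2, ℤ) ⧸ CongruenceSubgroup.Gamma0 N) (S : SL(2, ℤ))) : ℚ) / 2
        - 2 * (Nat.card (fixedBy (SL(2, ℤ) ⧸ CongruenceSubgroup.Gamma0 N) (S * T : SL(2, ℤ))) : ℚ) / 3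
        - (Nat.card (orbitRel.Quotient (Subgroup.zpowers (T : SL(2, ℤ)))
            (SL(2, ℤ) ⧸ CongruenceSubgroup.Gamma0 N)) : ℚ) :=
  finrank_parabolicHoms_le _ (neg_one_mem_Gamma0 N)

theorem finite_parabolicHoms_Gamma0 (N : ℕ) [NeZero N] :
    Module.Finite ℂ (parabolicHoms ℂ (CongruenceSubgroup.Gamma0 N) ℂ) :=
  (finrank_parabolicHoms_add_le _).1

end SL2Z

end Fermat.Agent.S21.OrbitCount
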