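import Mathlib
import Fermat.Prelude.Def_ModularCurve_PeriodHomPair
import Fermat.Prelude.Thm_CongruenceSubgroup_one_mem_strictPeriods_Gamma0
import Fermat.Prelude.Thm_Subgroup_IsArithmetic_exists_nat_mem_strictPeriods_conj

set_option autoImplicit false

open UpperHalfPlane Filter Topology Function
open scoped Real MatrixGroups Manifold ModularForm Pointwise

namespace Fermat.Agent.S21

/-- A holomorphic, `h`-periodic function on the upper half plane vanishing at `i∞` has a
primitive which tends to `0` at `i∞`. -/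
theorem exists_primitive_of_periodic {g : ℍ → ℂ} {h : ℝ} (hh : 0 < h)
    (hper : Periodic (g ∘ ofComplex) h) (hhol : MDiff g) (hzero : IsZeroAtImInfty g) :
    ∃ G : ℍ → ℂ, (∀ τ : ℍ, HasDerivAt (G ∘ ofComplex) (g τ) ↑τ) ∧ Tendsto G atImInfty (𝓝 0) := by
  set φ := cuspFunction h g with hφ
  have hbdd : IsBoundedAtImInfty g := hzero.isBoundedAtImInfty
  have hφd : DifferentiableOn ℂ φ (Metric.ball 0 1) :=
    differentiableOn_cuspFunction_ball hh hper hhol hbdd
  have hφ0 : φ 0 = 0 := hzero.cuspFunction_apply_zero hh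
  have hψd : DifferentiableOn ℂ (dslope φ 0) (Metric.ball 0 1) :=
    (Complex.differentiableOn_dslope (Metric.ball_mem_nhds 0 one_pos)).mpr hφd
  obtain ⟨Ψ, hΨ0, hΨ⟩ := hψd.isExactOn_ball.with_val_at 0 0
  have hc : (2 * π * Complex.I : ℂ) ≠ 0 := Complex.two_pi_I_ne_zero
  have hhc : (h : ℂ) ≠ 0 := by exact_mod_cast hh.ne'
  refine ⟨fun τ => (h / (2 * π * Complex.I)) * Ψ (Periodic.qParam h τ), fun τ => ?_, ?_⟩
  · -- derivative
    have hq : ‖Periodic.qParam h (τ : ℂ)‖ < 1 := Periodic.norm_qParam_lt_one hh τ.im_pos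
    have hq0 : Periodic.qParam h (τ : ℂ) ≠ 0 := Periodic.qParam_ne_zero _
    have h1 : HasDerivAt Ψ (dslope φ 0 (Periodic.qParam h τ)) (Periodic.qParam h τ) :=
      hΨ _ (by simpa using hq)
    have h2 : HasDerivAt (Periodic.qParam h)
        (Periodic.qParam h τ * (2 * π * Complex.I / h)) (τ : ℂ) := by
      unfold Periodic.qParam
      have : HasDerivAt (fun z : ℂ => 2 * π * Complex.I * z / h) (2 * π * Complex.I / h)
          (τ : ℂ) := by
        simpa using ((hasDerivAt_id (τ : ℂ)).const_mul (2 * π * Complex.I)).div_const (h : ℂ)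
      exact this.cexp
    have h3 := (h1.comp (τ : ℂ) h2).const_mul (h / (2 * π * Complex.I))
    have hev : ((fun τ : ℍ => (h / (2 * π * Complex.I)) * Ψ (Periodic.qParam h τ)) ∘ ofComplex)
        =ᶠ[𝓝 (τ : ℂ)] fun z => (h / (2 * π * Complex.I)) * (Ψ ∘ Periodic.qParam h) z := by
      filter_upwards [isOpen_upperHalfPlaneSet.mem_nhds τ.im_pos] with w hw
      simp [ofComplex_apply_of_im_pos hw]
    refine (h3.congr_of_eventuallyEq hev).congr_deriv ?_
    rw [dslope_of_ne _ hq0, slope_def_field, hφ0, sub_zero, sub_zero, hφ,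
      eq_cuspFunction τ hh.ne' hper]
    field_simp
  · -- limit
    have hcont : ContinuousAt Ψ 0 := (hΨ 0 (by simp)).continuousAt
    have := (hcont.tendsto.comp (qParam_tendsto_atImInfty hh)).const_mul
      (h / (2 * π * Complex.I))
    simpa [hΨ0] using this

/-- A function on the upper half plane with vanishing derivative is constant. -/
theorem eq_of_hasDerivAt_zero {H : ℍ → ℂ} (hH : ∀ τ : ℍ, HasDerivAt (H ∘ ofComplex) 0 ↑τ)
    (z w : ℍ) : H z = H w := by
  have hd : DifferentiableOn ℂ (H ∘ ofComplex) upperHalfPlaneSet := fun x hx =>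
    (hH ⟨x, hx⟩).differentiableAt.differentiableWithinAt
  have hd' : upperHalfPlaneSet.EqOn (deriv (H ∘ ofComplex)) 0 := fun x hx => (hH ⟨x, hx⟩).deriv
  have hconv : Convex ℝ upperHalfPlaneSet := convex_halfSpace_im_gt 0
  have := isOpen_upperHalfPlaneSet.is_const_of_deriv_eq_zero hconv.isPreconnected hd hd'
    z.im_pos w.im_pos
  simpa using this

/-- Chain rule for a primitive composed with a Möbius transformation. -/
theorem hasDerivAt_comp_smul {F f : ℍ → ℂ} (hF : ∀ τ : ℍ, HasDerivAt (F ∘ ofComplex) (f τ) ↑τ)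
    (δ : SL(2, ℤ)) (τ : ℍ) :
    HasDerivAt ((fun w : ℍ => F (δ • w)) ∘ ofComplex) ((f ∣[(2 : ℤ)] δ) τ) ↑τ := by
  have hdet1 : ((δ : GL (Fin 2) ℝ)).val.det = 1 := by
    rw [← Matrix.GeneralLinearGroup.val_det_apply]; simp
  have hdet : (0 : ℝ) < ((δ : GL (Fin 2) ℝ)).val.det := by rw [hdet1]; exact one_pos
  have h1 := (hasStrictDerivAt_smul hdet τ).hasDerivAt
  have h2 : HasDerivAt (F ∘ ofComplex) (f (δ • τ))
      ↑((δ : GL (Fin 2) ℝ) • ofComplex (τ : ℂ)) := by
    rw [ofComplex_apply]; exact hF (δ • τ)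
  have h3 := h2.comp (τ : ℂ) h1
  have hfun : ((fun w : ℍ => F (δ • w)) ∘ ofComplex) =
      (F ∘ ofComplex) ∘ (fun z : ℂ => ((((δ : GL (Fin 2) ℝ) • ofComplex z : ℍ)) : ℂ)) := by
    funext z
    simp only [Function.comp_apply, ofComplex_apply]
    rfl
  rw [hfun]
  refine h3.congr_deriv ?_
  rw [ModularForm.SL_slash_apply, hdet1]
  have hz := denom_ne_zero (δ : GL (Fin 2) ℝ) τ
  simp only [Complex.ofReal_one, zpow_neg]
  rw [one_div]
  rfl

open CongruenceSubgroup ModularCurve ModularCurve.Period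

/-- (a) Every weight two cusp form on `Γ₀(N)` has an equivariant primitive. -/
theorem exists_primitive (N : ℕ) [NeZero N] (f : CuspForm (Gamma0 N) 2) :
    ∃ F : ℍ → ℂ, HasEquivariantPrimitive N f F := by
  have hper1 : Periodic ((f : ℍ → ℂ) ∘ ofComplex) 1 :=
    SlashInvariantFormClass.periodic_comp_ofComplex f
      (CongruenceSubgroup.one_mem_strictPeriods_Gamma0 N)
  obtain ⟨F, hF, hF0⟩ := exists_primitive_of_periodic one_pos hper1 (CuspFormClass.holo f)
    (CuspFormClass.zero_at_infty f)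
  refine ⟨F, hF, hF0, ?_, ?_⟩
  · intro γ
    refine ⟨F ((γ : SL(2, ℤ)) • I) - F I, fun z => ?_⟩
    have hinv : (f : ℍ → ℂ) ∣[(2 : ℤ)] (γ : SL(2, ℤ)) = f :=
      SlashInvariantFormClass.slash_action_eq f _ (Subgroup.mem_map_of_mem _ γ.2)
    have hH : ∀ τ : ℍ,
        HasDerivAt ((fun w : ℍ => F ((γ : SL(2, ℤ)) • w) - F w) ∘ ofComplex) 0 τ := by
      intro τ
      have := (hasDerivAt_comp_smul hF γ τ).sub (hF τ)
      rw [hinv, sub_self] at this
      exact this
    exact eq_of_hasDerivAt_zero hH z I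
  · intro δ
    obtain ⟨M, hM, hMper⟩ := Subgroup.IsArithmetic.exists_nat_mem_strictPeriods_conj
      (Gamma0 N : Subgroup (GL (Fin 2) ℝ))
    have hperδ : Periodic (((f : ℍ → ℂ) ∣[(2 : ℤ)] δ) ∘ ofComplex) M := by
      have hmem : (M : ℝ) ∈ (ConjAct.toConjAct (Matrix.SpecialLinearGroup.mapGL ℝ δ)⁻¹ •
          (Gamma0 N : Subgroup (GL (Fin 2) ℝ))).strictPeriods := by
        have := hMper δ⁻¹
        rwa [map_inv] at this
      exact SlashInvariantFormClass.periodic_comp_ofComplex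
        (CuspForm.translate f (Matrix.SpecialLinearGroup.mapGL ℝ δ)) (h := M) hmem
    obtain ⟨G, hG, hG0⟩ := exists_primitive_of_periodic (by exact_mod_cast hM) hperδ
      ((CuspFormClass.holo f).slash 2 δ) (CuspFormClass.zero_at_infty_slash f δ)
    have hH : ∀ τ : ℍ, HasDerivAt ((fun w : ℍ => F (δ • w) - G w) ∘ ofComplex) 0 τ := by
      intro τ
      have := (hasDerivAt_comp_smul hF δ τ).sub (hG τ)
      rw [sub_self] at this
      exact this
    refine ⟨F (δ • I) - G I, ?_⟩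
    have heq : (fun w : ℍ => F (δ • w)) = fun w => G w + (F (δ • I) - G I) := by
      funext w
      have := eq_of_hasDerivAt_zero hH w I
      linear_combination this
    rw [heq]
    simpa using hG0.add_const (F (δ • I) - G I)

/-- (b) A primitive which tends to `0` at `i∞` is unique. -/
theorem primitive_unique {f F₁ F₂ : ℍ → ℂ}
    (h₁ : ∀ τ : ℍ, HasDerivAt (F₁ ∘ ofComplex) (f τ) ↑τ) (h₁' : Tendsto F₁ atImInfty (𝓝 0))
    (h₂ : ∀ τ : ℍ, HasDerivAt (F₂ ∘ ofComplex) (f τ) ↑τ) (h₂' : Tendsto F₂ atImInfty (𝓝 0)) :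
    F₁ = F₂ := by
  have hH : ∀ τ : ℍ, HasDerivAt ((fun w : ℍ => F₁ w - F₂ w) ∘ ofComplex) 0 τ := by
    intro τ
    have := (h₁ τ).sub (h₂ τ)
    rw [sub_self] at this
    exact this
  have hconst : ∀ w, F₁ w - F₂ w = F₁ I - F₂ I := fun w => eq_of_hasDerivAt_zero hH w I
  have hlim : Tendsto (fun w : ℍ => F₁ w - F₂ w) atImInfty (𝓝 0) := by simpa using h₁'.sub h₂'
  have hlim2 : Tendsto (fun w : ℍ => F₁ w - F₂ w) atImInfty (𝓝 (F₁ I - F₂ I)) := by
    simp_rw [hconst]; exact tendsto_const_nhds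
  have h0 := tendsto_nhds_unique hlim hlim2
  funext w
  have := hconst w
  rw [← h0] at this
  exact sub_eq_zero.mp this

/-- (c) The period map is computed by any equivariant primitive, at any base point. -/
theorem periodMap_apply {N : ℕ} {f : CuspForm (Gamma0 N) 2} {F : ℍ → ℂ}
    (hF : HasEquivariantPrimitive N f F) (γ : Gamma0 N) (z : ℍ) :
    periodMap N f (Additive.ofMul γ) = F ((γ : SL(2, ℤ)) • z) - F z := by
  obtain ⟨F₀, h₀, hp⟩ := periodMap_def N f hF
  have : F₀ = F := primitive_unique h₀.1 h₀.2.1 hF.1 hF.2.1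
  subst this
  rw [hp, IsEquivariantPrimitive.periodHom_apply, ← h₀.2.2.1.sub_eq_period γ z]

theorem hasEquivariantPrimitive_add {N : ℕ} {f g : CuspForm (Gamma0 N) 2} {F G : ℍ → ℂ}
    (hF : HasEquivariantPrimitive N f F) (hG : HasEquivariantPrimitive N g G) :
    HasEquivariantPrimitive N (f + g) (F + G) := by
  refine ⟨fun τ => (hF.1 τ).add (hG.1 τ), by simpa using! hF.2.1.add hG.2.1, fun γ => ?_,
    fun δ => ?_⟩
  · obtain ⟨c, hc⟩ := hF.2.2.1 γ
    obtain ⟨d, hd⟩ := hG.2.2.1 γ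
    refine ⟨c + d, fun z => ?_⟩
    simp only [Pi.add_apply]
    linear_combination hc z + hd z
  · obtain ⟨L, hL⟩ := hF.2.2.2 δ
    obtain ⟨L', hL'⟩ := hG.2.2.2 δ
    exact ⟨L + L', hL.add hL'⟩

theorem hasEquivariantPrimitive_smul {N : ℕ} {f : CuspForm (Gamma0 N) 2} {F : ℍ → ℂ} (c : ℂ)
    (hF : HasEquivariantPrimitive N f F) :
    HasEquivariantPrimitive N (c • f) (c • F) := by
  refine ⟨fun τ => (hF.1 τ).const_smul c, by simpa using! hF.2.1.const_smul c, fun γ => ?_,
    fun δ => ?_⟩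
  · obtain ⟨d, hd⟩ := hF.2.2.1 γ
    refine ⟨c * d, fun z => ?_⟩
    simp only [Pi.smul_apply, smul_eq_mul]
    linear_combination c * hd z
  · obtain ⟨L, hL⟩ := hF.2.2.2 δ
    exact ⟨c • L, hL.const_smul c⟩

/-- (d) The period map is `ℂ`-linear. -/
theorem existsPeriodMapLinear (N : ℕ) [NeZero N] : ExistsPeriodMapLinear N := by
  refine ⟨{ toFun := periodMap N, map_add' := ?_, map_smul' := ?_ }, fun f => rfl⟩
  · intro f g
    obtain ⟨F, hF⟩ := exists_primitive N f
    obtain ⟨G, hG⟩ := exists_primitive N g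
    refine AddMonoidHom.ext fun γ => ?_
    obtain ⟨γ, rfl⟩ := Additive.ofMul.surjective γ
    rw [AddMonoidHom.add_apply, periodMap_apply (hasEquivariantPrimitive_add hF hG) γ I,
      periodMap_apply hF γ I, periodMap_apply hG γ I]
    simp only [Pi.add_apply]
    ring
  · intro c f
    obtain ⟨F, hF⟩ := exists_primitive N f
    refine AddMonoidHom.ext fun γ => ?_
    obtain ⟨γ, rfl⟩ := Additive.ofMul.surjective γ
    rw [RingHom.id_apply, AddMonoidHom.smul_apply,
      periodMap_apply (hasEquivariantPrimitive_smul c hF) γ I, periodMap_apply hF γ I]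
    simp only [Pi.smul_apply, smul_eq_mul]
    ring

end Fermat.Agent.S21
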