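import Mathlib
import Fermat.Prelude.Def_ModularCurve_PeriodHomPair
import Fermat.Prelude.Def_ModularCurve_GenusNumerics
import Fermat.Agent.S21.Assembly
import Fermat.Agent.S21.Primitive
import Fermat.Agent.S21.Injective
import Fermat.Agent.S21.OrbitCount
import Fermat.Agent.S20.FixedPoints
import Fermat.Agent.S20.IndexGamma0
import Fermat.Agent.S20.CuspOrbits

/-!
# S20 and S21 reduced to the lower bound `genusFormula N ≤ dim S₂(Γ₀(N))`

Everything else (primitives, injectivity of the period pairing, parabolicity, the cohomological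
upper bound and the orbit counts) is already proved, so both frozen statements follow from
the single inequality `hlow`.
-/

set_option autoImplicit false

open CongruenceSubgroup ModularCurve ModularCurve.Period

namespace Fermat.Agent.S21

/-- The cohomological bound in terms of the genus formula. -/
theorem finrank_parabolicHoms_le_two_genus (N : ℕ) [NeZero N] :
    (Module.finrank ℂ (parabolicHoms ℂ (Gamma0 N) ℂ) : ℚ) ≤ 2 * genusFormula N := by
  have h := OrbitCount.finrank_parabolicHoms_Gamma0_le N
  rw [Fermat.Agent.S20.Combinatorics.card_quotient, Fermat.Agent.S20.Combinatorics.card_fixedBy_S,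
    Fermat.Agent.S20.Combinatorics.card_fixedBy_ST,
    Fermat.Agent.S20.Combinatorics.card_orbits_T] at h
  unfold genusFormula
  linarith

theorem periodHomPair_injective' (N : ℕ) [NeZero N] :
    Function.Injective (periodHomPair N) :=
  periodHomPair_injective N (exists_primitive N) (existsPeriodMapLinear N)

/-- `S₂(Γ₀(N))` is finite dimensional. -/
theorem finite_cuspForm (N : ℕ) [NeZero N] : Module.Finite ℂ (CuspForm (Gamma0 N) 2) := by
  have hfin := OrbitCount.finite_parabolicHoms_Gamma0 N
  have hle := range_periodHomPair_le N (existsPeriodMapLinear N)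
    (fun f => periodMap_mem_parabolicHoms f (exists_primitive N f))
  have hfinR : Module.Finite ℂ (LinearMap.range (periodHomPair N)) :=
    Submodule.finiteDimensional_of_le hle
  have e : (CuspForm (Gamma0 N) 2 × CuspForm (Gamma0 N) 2) ≃ₗ[ℂ]
      LinearMap.range (periodHomPair N) := LinearEquiv.ofInjective _ (periodHomPair_injective' N)
  have hfinP : Module.Finite ℂ (CuspForm (Gamma0 N) 2 × CuspForm (Gamma0 N) 2) :=
    Module.Finite.equiv e.symm
  exact Module.Finite.of_surjective
      (LinearMap.fst ℂ (CuspForm (Gamma0 N) 2) (CuspForm (Gamma0 N) 2)) LinearMap.fst_surjective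

/-- The upper bound `2 dim S₂ ≤ dim Hom_par`. -/
theorem two_finrank_cuspForm_le (N : ℕ) [NeZero N] :
    2 * Module.finrank ℂ (CuspForm (Gamma0 N) 2)
      ≤ Module.finrank ℂ (parabolicHoms ℂ (Gamma0 N) ℂ) := by
  have hfin := OrbitCount.finite_parabolicHoms_Gamma0 N
  have hfinC := finite_cuspForm N
  have hle := range_periodHomPair_le N (existsPeriodMapLinear N)
    (fun f => periodMap_mem_parabolicHoms f (exists_primitive N f))
  have e : (CuspForm (Gamma0 N) 2 × CuspForm (Gamma0 N) 2) ≃ₗ[ℂ]
      LinearMap.range (periodHomPair N) := LinearEquiv.ofInjective _ (periodHomPair_injective' N)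
  have h1 := Submodule.finrank_mono hle
  rw [← e.finrank_eq, Module.finrank_prod] at h1
  omega

/-- The upper bound `dim S₂(Γ₀(N)) ≤ genusFormula N`, unconditionally. -/
theorem finrank_cuspForm_le_genus (N : ℕ) [NeZero N] :
    (Module.finrank ℂ (CuspForm (Gamma0 N) 2) : ℚ) ≤ genusFormula N := by
  have h1 := two_finrank_cuspForm_le N
  have h2 := finrank_parabolicHoms_le_two_genus N
  have h1' : (2 : ℚ) * Module.finrank ℂ (CuspForm (Gamma0 N) 2)
      ≤ Module.finrank ℂ (parabolicHoms ℂ (Gamma0 N) ℂ) := by exact_mod_cast h1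
  linarith

/-- S20 from the lower bound. -/
theorem S20_of_lower (N : ℕ) [NeZero N]
    (hlow : genusFormula N ≤ (Module.finrank ℂ (CuspForm (Gamma0 N) 2) : ℚ)) :
    (Module.finrank ℂ (CuspForm (Gamma0 N) 2) : ℚ) = genusFormula N :=
  le_antisymm (finrank_cuspForm_le_genus N) hlow

/-- S21 from the lower bound. -/
theorem S21_of_lower (N : ℕ) [NeZero N]
    (hlow : genusFormula N ≤ (Module.finrank ℂ (CuspForm (Gamma0 N) 2) : ℚ)) :
    Function.Injective (periodHomPair N)
      ∧ LinearMap.range (periodHomPair N) = parabolicHoms ℂ (Gamma0 N) ℂ := by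
  refine assemble' N (exists_primitive N) (existsPeriodMapLinear N) (periodHomPair_injective' N)
    (OrbitCount.finite_parabolicHoms_Gamma0 N) ?_
  have h2 := finrank_parabolicHoms_le_two_genus N
  have : (Module.finrank ℂ (parabolicHoms ℂ (Gamma0 N) ℂ) : ℚ)
      ≤ ((2 * Module.finrank ℂ (CuspForm (Gamma0 N) 2) : ℕ) : ℚ) := by
    push_cast
    linarith
  exact_mod_cast this

end Fermat.Agent.S21
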